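/-
P-S41 block (B2) (helper67): the abstract comparison `cor_j ∘ res_k = T_q`.

`Γ = Γ₀(N)`, `q ∤ N` prime, `α_x = heckeRep q x` (`x ∈ ℙ¹(𝔽_q)`) the coset representatives of `T_q`
with `α_x γ = coc(x, γ) α_{x·γ}` (`x·γ = redMatrix q γ • x`).  Let `j k : G' →* Γ` with `j` injective,
`x₀ ∈ ℙ¹(𝔽_q)` with stabiliser `range j`, and `α_{x₀} j(h) = k(h) α_{x₀}` in `GL₂(ℝ)`.  Then
`corAlong j (resAlong k φ) = heckeHom N q φ`.
-/
import Fermat.Agent.Gateway.Hecke.Coh
import Fermat.Agent.S41.Degeneracy.Bridge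

set_option autoImplicit false

noncomputable section

namespace Fermat.Agent.S41.Degeneracy

open P2MW.S_ModularForm_heckeT_slash_eq_self_of_mem_Gamma0.ModularForm.HeckeSlashInvariance
open CongruenceSubgroup Matrix.SpecialLinearGroup
open scoped MatrixGroups
open Fermat.Agent.S41 Fermat.Agent.Gateway.HeckeCoh

section Compare

variable (N q : ℕ) [NeZero N] [Fact q.Prime] (hqN : ¬ q ∣ N)

/-- the right action of `Γ₀(N)` on `ℙ¹(𝔽_q)` -/
def actG (γ : Gamma0 N) (x : OnePoint (ZMod q)) : OnePoint (ZMod q) :=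
  redMatrix q (γ : SL(2, ℤ)) • x

omit [NeZero N] in
theorem actG_one (x : OnePoint (ZMod q)) : actG N q 1 x = x := by
  unfold actG
  rw [Subgroup.coe_one, redMatrix_one, one_smul]

omit [NeZero N] in
theorem actG_mul (γ γ' : Gamma0 N) (x : OnePoint (ZMod q)) :
    actG N q (γ * γ') x = actG N q γ' (actG N q γ x) := by
  unfold actG
  rw [Subgroup.coe_mul, redMatrix_mul, mul_smul]

variable {G' : Type*} [Group G'] {A : Type*} [AddCommGroup A]

include hqN in
/-- **the comparison of `cor ∘ res` with the Hecke operator `T_q`**. -/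
theorem corAlong_resAlong_eq_heckeHom (j k : G' →* Gamma0 N) (hj : Function.Injective j)
    [j.range.FiniteIndex] (x₀ : OnePoint (ZMod q))
    (hstab : ∀ γ : Gamma0 N, actG N q γ x₀ = x₀ ↔ γ ∈ j.range)
    (t : OnePoint (ZMod q) → Gamma0 N) (ht : ∀ x, actG N q (t x) x₀ = x)
    (hε : ∀ h : G', heckeRep q x₀ * mapGL ℝ ((j h : Gamma0 N) : SL(2, ℤ))
      = mapGL ℝ ((k h : Gamma0 N) : SL(2, ℤ)) * heckeRep q x₀)
    (φ : Additive (Gamma0 N) →+ A) :
    corAlong j hj A (resAlong k A φ) = heckeHom N q hqN A φ := by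
  classical
  apply AddMonoidHom.ext
  intro γ
  obtain ⟨γ, rfl⟩ := Additive.ofMul.surjective γ
  -- the right transversal
  set T : RightTransversal j.range (OnePoint (ZMod q)) :=
    RightTransversal.ofAction j (actG N q) (actG_one N q) (actG_mul N q) x₀ hstab t ht with hT
  have hTt : ∀ x, T.t x = t x := fun _ => rfl
  have hact : ∀ x, T.act γ x = actG N q γ x := fun x =>
    RightTransversal.ofAction_act j (actG N q) (actG_one N q) (actG_mul N q) x₀ hstab t ht γ x
  -- the cocycle of the transversal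
  have hex : ∀ x, ∃ c : G', T.t x * γ = j c * T.t (T.act γ x) := fun x => by
    obtain ⟨c, hc⟩ := (T.coc x γ).2
    exact ⟨c, by rw [hc]; exact T.t_mul x γ⟩
  choose c hc using hex
  rw [corAlong_eq_sum j hj T (resAlong k A φ) γ (T.act γ) c hc, heckeHom_apply]
  -- the conjugating elements
  set u : OnePoint (ZMod q) → Gamma0 N := fun x => coc N q hqN x₀ (t x) with hu
  have hux : ∀ x, heckeRep q x₀ * mapGL ℝ ((t x : Gamma0 N) : SL(2, ℤ))
      = mapGL ℝ ((u x : Gamma0 N) : SL(2, ℤ)) * heckeRep q x := by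
    intro x
    have h1 := coc_spec N q hqN x₀ (t x)
    have h2 : redMatrix q ((t x : Gamma0 N) : SL(2, ℤ)) • x₀ = x := ht x
    rw [h2] at h1
    exact h1
  -- the key identity
  have hkey : ∀ x, k (c x) = u x * coc N q hqN x γ * (u (T.act γ x))⁻¹ := by
    intro x
    rw [eq_mul_inv_iff_mul_eq]
    apply Subtype.ext
    apply mapGL_injective (R := ℤ) (S := ℝ)
    apply mul_right_cancel (b := heckeRep q (T.act γ x))
    have h3 : ((j (c x) : Gamma0 N) : SL(2, ℤ)) * ((t (T.act γ x) : Gamma0 N) : SL(2, ℤ))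
        = ((t x : Gamma0 N) : SL(2, ℤ)) * ((γ : Gamma0 N) : SL(2, ℤ)) := by
      have := congrArg (fun z : Gamma0 N => (z : SL(2, ℤ))) (hc x)
      simp only [Subgroup.coe_mul, hTt] at this
      exact this.symm
    have e1 : mapGL ℝ (((k (c x) * u (T.act γ x) : Gamma0 N)) : SL(2, ℤ)) * heckeRep q (T.act γ x)
        = heckeRep q x₀ * mapGL ℝ ((t x : Gamma0 N) : SL(2, ℤ)) * mapGL ℝ ((γ : Gamma0 N) : SL(2, ℤ)) := by
      calc mapGL ℝ (((k (c x) * u (T.act γ x) : Gamma0 N)) : SL(2, ℤ)) * heckeRep q (T.act γ x)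
          = mapGL ℝ ((k (c x) : Gamma0 N) : SL(2, ℤ)) *
              (mapGL ℝ ((u (T.act γ x) : Gamma0 N) : SL(2, ℤ)) * heckeRep q (T.act γ x)) := by
            rw [Subgroup.coe_mul, map_mul, mul_assoc]
        _ = (mapGL ℝ ((k (c x) : Gamma0 N) : SL(2, ℤ)) * heckeRep q x₀) *
              mapGL ℝ ((t (T.act γ x) : Gamma0 N) : SL(2, ℤ)) := by
            rw [← hux (T.act γ x), mul_assoc]
        _ = heckeRep q x₀ * (mapGL ℝ ((j (c x) : Gamma0 N) : SL(2, ℤ)) *
              mapGL ℝ ((t (T.act γ x) : Gamma0 N) : SL(2, ℤ))) := by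
            rw [← hε (c x), mul_assoc]
        _ = heckeRep q x₀ * mapGL ℝ ((t x : Gamma0 N) : SL(2, ℤ)) *
              mapGL ℝ ((γ : Gamma0 N) : SL(2, ℤ)) := by
            rw [← map_mul, h3, map_mul, mul_assoc]
    have e2 : mapGL ℝ (((u x * coc N q hqN x γ : Gamma0 N)) : SL(2, ℤ)) * heckeRep q (T.act γ x)
        = heckeRep q x₀ * mapGL ℝ ((t x : Gamma0 N) : SL(2, ℤ)) * mapGL ℝ ((γ : Gamma0 N) : SL(2, ℤ)) := by
      rw [Subgroup.coe_mul, map_mul, hux x, mul_assoc, mul_assoc, coc_spec N q hqN x γ, hact x]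
      rfl
    rw [e1, e2]
  have hsum : ∀ x, resAlong k A φ (Additive.ofMul (c x))
      = φ (Additive.ofMul (u x * coc N q hqN x γ * (u (T.act γ x))⁻¹)) := by
    intro x
    rw [resAlong_apply, hkey x]
  rw [Finset.sum_congr rfl fun x _ => hsum x]
  exact sum_conj_eq φ (T.act γ) u fun x => coc N q hqN x γ

end Compare

end Fermat.Agent.S41.Degeneracy
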