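import Mathlib
import Fermat.Agent.S41.Defs
import Fermat.Agent.Gateway.Hecke.Coh

/-!
# P-S41 (B2) D2: the right action of `SL(2, ℤ)` on `ℙ¹(𝔽_q)` and stabilisers

`actP1 q g x = redMatrix q g • x` where `redMatrix q g = [[d, b], [c, a]] mod q` (an
anti-homomorphism), so `actP1` is a right action.  The stabiliser of `∞` is `q ∣ c` and the
stabiliser of `0` is `q ∣ b`.  Both `∞` and `0` have full orbit under `Γ(M)` for `M` prime to `q`.
Finally the ranges of the two degeneracy maps `incl`, `degConj : Γ₀(N q) → Γ₀(N)` are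
the stabilisers of `∞` resp. `0` in `Γ₀(N)`.
-/

set_option autoImplicit false

namespace Fermat.Agent.S41.Degeneracy

open P2MW.S_ModularForm_heckeT_slash_eq_self_of_mem_Gamma0.ModularForm.HeckeSlashInvariance
open CongruenceSubgroup Matrix
open scoped MatrixGroups OnePoint

variable (q : ℕ) [Fact q.Prime]

/-- The right action of `SL(2, ℤ)` on `ℙ¹(𝔽_q)`. -/
def actP1 (g : SL(2, ℤ)) (x : OnePoint (ZMod q)) : OnePoint (ZMod q) := redMatrix q g • x

theorem actP1_one (x : OnePoint (ZMod q)) : actP1 q 1 x = x := by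
  rw [actP1, Gateway.HeckeCoh.redMatrix_one, one_smul]

theorem actP1_mul (g h : SL(2, ℤ)) (x : OnePoint (ZMod q)) :
    actP1 q (g * h) x = actP1 q h (actP1 q g x) := by
  rw [actP1, actP1, actP1, Gateway.HeckeCoh.redMatrix_mul, mul_smul]

theorem actP1_infty_eq_infty_iff (g : SL(2, ℤ)) : actP1 q g ∞ = ∞ ↔ (q : ℤ) ∣ g 1 0 := by
  rw [actP1, OnePoint.smul_infty_eq_self_iff, redMatrix_apply_one_zero,
    ZMod.intCast_zmod_eq_zero_iff_dvd]

theorem cast_det_eq (g : SL(2, ℤ)) :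
    ((g 0 0 : ℤ) : ZMod q) * ((g 1 1 : ℤ) : ZMod q) - ((g 0 1 : ℤ) : ZMod q) * ((g 1 0 : ℤ) : ZMod q)
      = 1 := by
  have := congrArg (Int.cast : ℤ → ZMod q) (det_eq g)
  push_cast at this
  exact this

theorem actP1_zero (g : SL(2, ℤ)) :
    actP1 q g ((0 : ZMod q) : OnePoint (ZMod q)) =
      if ((g 0 0 : ℤ) : ZMod q) = 0 then ∞ else
        ((((g 0 1 : ℤ) : ZMod q) / ((g 0 0 : ℤ) : ZMod q) : ZMod q) : OnePoint (ZMod q)) := by
  rw [actP1, OnePoint.smul_some_eq_ite, redMatrix_apply_one_zero, redMatrix_apply_one_one,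
    redMatrix_apply_zero_zero, redMatrix_apply_zero_one]
  simp only [mul_zero, zero_add]

theorem actP1_infty (g : SL(2, ℤ)) :
    actP1 q g ∞ =
      if ((g 1 0 : ℤ) : ZMod q) = 0 then ∞ else
        ((((g 1 1 : ℤ) : ZMod q) / ((g 1 0 : ℤ) : ZMod q) : ZMod q) : OnePoint (ZMod q)) := by
  rw [actP1, OnePoint.smul_infty_eq_ite, redMatrix_apply_one_zero, redMatrix_apply_zero_zero]

theorem actP1_zero_eq_zero_iff (g : SL(2, ℤ)) :
    actP1 q g ((0 : ZMod q) : OnePoint (ZMod q)) = ((0 : ZMod q) : OnePoint (ZMod q)) ↔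
      (q : ℤ) ∣ g 0 1 := by
  rw [actP1_zero, ← ZMod.intCast_zmod_eq_zero_iff_dvd]
  have hdet := cast_det_eq q g
  constructor
  · intro h
    split_ifs at h with ha
    · exact absurd h (OnePoint.infty_ne_coe _)
    · rw [OnePoint.coe_eq_coe, div_eq_zero_iff] at h
      exact h.resolve_right ha
  · intro hb
    have ha : ((g 0 0 : ℤ) : ZMod q) ≠ 0 := by
      intro ha
      rw [ha, hb] at hdet
      simp at hdet
    rw [if_neg ha, hb, zero_div]

/-- `Γ(M)` acts transitively on `ℙ¹(𝔽_q)` when `M` is prime to `q`: the orbit of `∞`. -/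
theorem exists_mem_Gamma_actP1_infty (M : ℕ) (hM : Nat.Coprime M q) (x : OnePoint (ZMod q)) :
    ∃ g : SL(2, ℤ), g ∈ CongruenceSubgroup.Gamma M ∧ actP1 q g ∞ = x := by
  cases x with
  | infty => exact ⟨1, Subgroup.one_mem _, actP1_one q _⟩
  | coe j =>
    -- Bezout for `M`, `q`
    have hcop : IsCoprime (M : ℤ) (q : ℤ) := Nat.isCoprime_iff_coprime.mpr hM
    obtain ⟨u, v, huv⟩ := hcop
    -- `d ≡ 1 mod M`, `d ≡ j M mod q`
    set d : ℤ := v * q + u * M * ((j.val : ℤ) * M) with hd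
    have hdM : d = 1 + M * (u * ((j.val : ℤ) * M) - u) := by
      rw [hd]; linear_combination huv
    have hcop2 : IsCoprime d ((M : ℤ) * M) := by
      have h1 : IsCoprime d (M : ℤ) := ⟨1, -(u * ((j.val : ℤ) * M) - u), by rw [hdM]; ring⟩
      exact h1.mul_right h1
    obtain ⟨a, b', hab⟩ := hcop2
    let A : Matrix (Fin 2) (Fin 2) ℤ := !![a, -(b' * M); (M : ℤ), d]
    have hA : A.det = 1 := by
      rw [Matrix.det_fin_two_of]; linear_combination hab
    let g : SL(2, ℤ) := ⟨A, hA⟩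
    have g00 : g 0 0 = a := by simp [g, A]
    have g01 : g 0 1 = -(b' * M) := by simp [g, A]
    have g10 : g 1 0 = (M : ℤ) := by simp [g, A]
    have g11 : g 1 1 = d := by simp [g, A]
    have hMM : ((M : ℤ) : ZMod M) = 0 := by simp
    have hdM' : ((d : ℤ) : ZMod M) = 1 := by
      rw [hdM]; push_cast; simp
    refine ⟨g, ?_, ?_⟩
    · rw [Gamma_mem, g00, g01, g10, g11]
      refine ⟨?_, ?_, hMM, hdM'⟩
      · have := congrArg (Int.cast : ℤ → ZMod M) hab
        push_cast at this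
        rw [hdM'] at this
        simpa using this
      · push_cast; simp
    · have hMq : ((M : ℤ) : ZMod q) ≠ 0 := by
        rw [Ne, ZMod.intCast_zmod_eq_zero_iff_dvd]
        intro h
        have h' : q ∣ M := by exact_mod_cast h
        have := Nat.Coprime.eq_one_of_dvd hM.symm h'
        exact (Fact.out : q.Prime).one_lt.ne' this
      have hdq : ((d : ℤ) : ZMod q) = j * ((M : ℤ) : ZMod q) := by
        have h1 : ((u : ℤ) : ZMod q) * ((M : ℤ) : ZMod q) = 1 := by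
          have := congrArg (Int.cast : ℤ → ZMod q) huv
          push_cast at this
          simpa using this
        rw [hd]
        push_cast
        rw [ZMod.natCast_zmod_val, ZMod.natCast_self, mul_zero, zero_add]
        have h1' : ((u : ℤ) : ZMod q) * (M : ZMod q) = 1 := by simpa using h1
        rw [h1', one_mul]
      rw [actP1_infty, g10, g11, if_neg hMq, hdq, mul_div_assoc, div_self hMq, mul_one]

/-- `Γ(M)` acts transitively on `ℙ¹(𝔽_q)` when `M` is prime to `q`: the orbit of `0`. -/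
theorem exists_mem_Gamma_actP1_zero (M : ℕ) (hM : Nat.Coprime M q) (x : OnePoint (ZMod q)) :
    ∃ g : SL(2, ℤ), g ∈ CongruenceSubgroup.Gamma M ∧
      actP1 q g ((0 : ZMod q) : OnePoint (ZMod q)) = x := by
  obtain ⟨g0, hg0, h0⟩ := exists_mem_Gamma_actP1_infty q M hM ((0 : ZMod q) : OnePoint (ZMod q))
  obtain ⟨g1, hg1, h1⟩ := exists_mem_Gamma_actP1_infty q M hM x
  refine ⟨g0⁻¹ * g1, Subgroup.mul_mem _ (Subgroup.inv_mem _ hg0) hg1, ?_⟩
  rw [← h0, ← actP1_mul, mul_inv_cancel_left, h1]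

theorem mem_range_incl_iff (N : ℕ) (hqN : ¬ q ∣ N) (γ : Gamma0 N) :
    γ ∈ (Fermat.Agent.S41.incl N q).range ↔ (q : ℤ) ∣ (γ : SL(2, ℤ)) 1 0 := by
  constructor
  · rintro ⟨δ, rfl⟩
    rw [incl_coe]
    exact dvd_trans (Dvd.intro_left _ rfl) (dvd_of_mem_Gamma0_mul N q δ.2)
  · intro h
    have hN : (N : ℤ) ∣ (γ : SL(2, ℤ)) 1 0 :=
      (ZMod.intCast_zmod_eq_zero_iff_dvd _ _).mp (Gamma0_mem.mp γ.2)
    have hcop : IsCoprime (N : ℤ) (q : ℤ) := by
      rw [Nat.isCoprime_iff_coprime]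
      exact ((Nat.Prime.coprime_iff_not_dvd (Fact.out : q.Prime)).mpr hqN).symm
    have hNq : (N : ℤ) * (q : ℤ) ∣ (γ : SL(2, ℤ)) 1 0 := hcop.mul_dvd hN h
    have hmem : (γ : SL(2, ℤ)) ∈ Gamma0 (N * q) := by
      rw [Gamma0_mem]
      refine (ZMod.intCast_zmod_eq_zero_iff_dvd _ _).mpr ?_
      push_cast
      exact hNq
    exact ⟨⟨γ, hmem⟩, Subtype.ext rfl⟩

theorem mem_range_degConj_iff (N : ℕ) (γ : Gamma0 N) :
    γ ∈ (Fermat.Agent.S41.degConj N q).range ↔ (q : ℤ) ∣ (γ : SL(2, ℤ)) 0 1 := by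
  have hq : (q : ℤ) ≠ 0 := by exact_mod_cast (Fact.out : q.Prime).ne_zero
  constructor
  · rintro ⟨δ, rfl⟩
    rw [degConj_coe, degSL_zero_one]
    exact Dvd.intro _ rfl
  · rintro ⟨b', hb'⟩
    have hN : (N : ℤ) ∣ (γ : SL(2, ℤ)) 1 0 :=
      (ZMod.intCast_zmod_eq_zero_iff_dvd _ _).mp (Gamma0_mem.mp γ.2)
    have hdet := (γ : SL(2, ℤ)).det_coe
    rw [Matrix.det_fin_two] at hdet
    let M : Matrix (Fin 2) (Fin 2) ℤ :=
      !![(γ : SL(2, ℤ)) 0 0, b'; (q : ℤ) * (γ : SL(2, ℤ)) 1 0, (γ : SL(2, ℤ)) 1 1]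
    have hM : M.det = 1 := by
      rw [Matrix.det_fin_two_of]
      rw [hb'] at hdet
      linear_combination hdet
    let δ : SL(2, ℤ) := ⟨M, hM⟩
    have hδ : δ ∈ Gamma0 (N * q) := by
      rw [Gamma0_mem]
      show (((M 1 0 : ℤ)) : ZMod (N * q)) = 0
      have : M 1 0 = (q : ℤ) * (γ : SL(2, ℤ)) 1 0 := by simp [M]
      rw [this]
      refine (ZMod.intCast_zmod_eq_zero_iff_dvd _ _).mpr ?_
      push_cast
      rw [mul_comm (N : ℤ)]
      exact mul_dvd_mul_left _ hN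
    refine ⟨⟨δ, hδ⟩, ?_⟩
    apply Subtype.ext
    rw [degConj_coe]
    ext i j
    fin_cases i <;> fin_cases j
    · show (degSL N q ⟨δ, hδ⟩) 0 0 = (γ : SL(2, ℤ)) 0 0
      rw [degSL_zero_zero]
      simp [δ, M]
    · show (degSL N q ⟨δ, hδ⟩) 0 1 = (γ : SL(2, ℤ)) 0 1
      rw [degSL_zero_one, hb']
      simp [δ, M]
    · show (degSL N q ⟨δ, hδ⟩) 1 0 = (γ : SL(2, ℤ)) 1 0
      apply mul_left_cancel₀ hq
      rw [q_mul_degSL_one_zero]
      simp [δ, M]
    · show (degSL N q ⟨δ, hδ⟩) 1 1 = (γ : SL(2, ℤ)) 1 1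
      rw [degSL_one_one]
      simp [δ, M]

end Fermat.Agent.S41.Degeneracy
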