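/-
P-S41 block (B2), item (d) of (I1) (helper67):
`cor₁ res₁ = cor₂ res₂ = (q + 1)`, `cor₁ res₂ = cor₂ res₁ = T_q` on `Hom(Γ₀(N), A)`, `q ∤ N` prime.
-/
import Fermat.Agent.S41.Degeneracy.P1
import Fermat.Agent.S41.Degeneracy.HeckeCompare

set_option autoImplicit false
set_option linter.unusedSectionVars false

noncomputable section

namespace Fermat.Agent.S41.Degeneracy

open P2MW.S_ModularForm_heckeT_slash_eq_self_of_mem_Gamma0.ModularForm.HeckeSlashInvariance
open CongruenceSubgroup Matrix.SpecialLinearGroup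
open scoped MatrixGroups
open OnePoint
open Fermat.Agent.S41 Fermat.Agent.Gateway.HeckeCoh

section Matrices

variable (N q : ℕ) [NeZero q]

/-- `diag(q, 1) h = degConj(h) diag(q, 1)`. -/
theorem heckeRep_infty_mul_incl (h : Gamma0 (N * q)) :
    heckeRep q ∞ * mapGL ℝ ((incl N q h : Gamma0 N) : SL(2, ℤ))
      = mapGL ℝ ((degConj N q h : Gamma0 N) : SL(2, ℤ)) * heckeRep q ∞ := by
  have hq : q ≠ 0 := NeZero.ne q
  have h10 := q_mul_degSL_one_zero N q h
  apply Matrix.GeneralLinearGroup.ext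
  intro i j
  rw [heckeRep_infty, incl_coe, degConj_coe, Matrix.GeneralLinearGroup.coe_mul,
    Matrix.GeneralLinearGroup.coe_mul, ModularForm.val_heckeDiagMatrix hq, mapGL_coe_matrix,
    mapGL_coe_matrix]
  rw [degSL_one_zero] at h10
  have h10' : (q : ℝ) * ((((h : SL(2, ℤ)) 1 0 / (q : ℤ) : ℤ)) : ℝ)
      = (((h : SL(2, ℤ)) 1 0 : ℤ) : ℝ) := by
    exact_mod_cast h10
  fin_cases i <;> fin_cases j <;>
    simp [Matrix.mul_apply, Fin.sum_univ_two, Matrix.map_apply, mul_comm]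
  linarith

/-- `diag(1, q) degConj(h) = h diag(1, q)`. -/
theorem heckeRep_zero_mul_degConj (h : Gamma0 (N * q)) :
    heckeRep q ((0 : ZMod q) : OnePoint (ZMod q)) * mapGL ℝ ((degConj N q h : Gamma0 N) : SL(2, ℤ))
      = mapGL ℝ ((incl N q h : Gamma0 N) : SL(2, ℤ))
        * heckeRep q ((0 : ZMod q) : OnePoint (ZMod q)) := by
  have hq : q ≠ 0 := NeZero.ne q
  have h10 := q_mul_degSL_one_zero N q h
  apply Matrix.GeneralLinearGroup.ext
  intro i j
  rw [heckeRep_coe, ZMod.val_zero, incl_coe, degConj_coe, Matrix.GeneralLinearGroup.coe_mul,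
    Matrix.GeneralLinearGroup.coe_mul, ModularForm.val_heckeMatrix hq, mapGL_coe_matrix,
    mapGL_coe_matrix]
  rw [degSL_one_zero] at h10
  have h10' : (q : ℝ) * ((((h : SL(2, ℤ)) 1 0 / (q : ℤ) : ℤ)) : ℝ)
      = (((h : SL(2, ℤ)) 1 0 : ℤ) : ℝ) := by
    exact_mod_cast h10
  fin_cases i <;> fin_cases j <;>
    simp [Matrix.mul_apply, Fin.sum_univ_two, Matrix.map_apply, mul_comm]
  linarith

end Matrices

section Main

variable (N q : ℕ) [NeZero N] [Fact q.Prime] (hqN : ¬ q ∣ N) (A : Type*) [AddCommGroup A]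

theorem Gamma_le_Gamma0' : Gamma N ≤ Gamma0 N :=
  le_trans (fun g hg => by
    rw [Gamma1_mem]
    rw [Gamma_mem] at hg
    exact ⟨hg.1, hg.2.2.2, hg.2.2.1⟩) (Gamma1_in_Gamma0 N)

include hqN in
theorem coprime_of_not_dvd : Nat.Coprime N q :=
  ((Nat.Prime.coprime_iff_not_dvd Fact.out).mpr hqN).symm

include hqN in
/-- representatives of `Γ₀(N q) \ Γ₀(N)` indexed by `ℙ¹(𝔽_q)` -/
theorem exists_reps_infty :
    ∃ t : OnePoint (ZMod q) → Gamma0 N, ∀ x, actG N q (t x) ∞ = x := by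
  have h : ∀ x : OnePoint (ZMod q), ∃ g : Gamma0 N, actG N q g ∞ = x := by
    intro x
    obtain ⟨g, hg, hx⟩ := exists_mem_Gamma_actP1_infty q N (coprime_of_not_dvd N q hqN) x
    exact ⟨⟨g, Gamma_le_Gamma0' N hg⟩, hx⟩
  choose t ht using h
  exact ⟨t, ht⟩

include hqN in
/-- representatives of `degConj(Γ₀(N q)) \ Γ₀(N)` indexed by `ℙ¹(𝔽_q)` -/
theorem exists_reps_zero :
    ∃ t : OnePoint (ZMod q) → Gamma0 N,
      ∀ x, actG N q (t x) ((0 : ZMod q) : OnePoint (ZMod q)) = x := by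
  have h : ∀ x : OnePoint (ZMod q), ∃ g : Gamma0 N,
      actG N q g ((0 : ZMod q) : OnePoint (ZMod q)) = x := by
    intro x
    obtain ⟨g, hg, hx⟩ := exists_mem_Gamma_actP1_zero q N (coprime_of_not_dvd N q hqN) x
    exact ⟨⟨g, Gamma_le_Gamma0' N hg⟩, hx⟩
  choose t ht using h
  exact ⟨t, ht⟩

include hqN in
theorem stab_infty (γ : Gamma0 N) : actG N q γ ∞ = ∞ ↔ γ ∈ (incl N q).range := by
  rw [mem_range_incl_iff q N hqN γ]
  exact actP1_infty_eq_infty_iff q (γ : SL(2, ℤ))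

theorem stab_zero (γ : Gamma0 N) :
    actG N q γ ((0 : ZMod q) : OnePoint (ZMod q)) = ((0 : ZMod q) : OnePoint (ZMod q))
      ↔ γ ∈ (degConj N q).range := by
  rw [mem_range_degConj_iff q N γ]
  exact actP1_zero_eq_zero_iff q (γ : SL(2, ℤ))

theorem card_onePoint_zmod : Fintype.card (OnePoint (ZMod q)) = q + 1 := by
  have : Fintype.card (OnePoint (ZMod q)) = Fintype.card (Option (ZMod q)) :=
    Fintype.card_congr (Equiv.refl _)
  rw [this, Fintype.card_option, ZMod.card]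

include hqN in
theorem index_range_incl : (incl N q).range.index = q + 1 := by
  obtain ⟨t, ht⟩ := exists_reps_infty N q hqN
  rw [(RightTransversal.ofAction (incl N q) (actG N q) (actG_one N q) (actG_mul N q) ∞
    (stab_infty N q hqN) t ht).index_eq_card, card_onePoint_zmod]

include hqN in
theorem index_range_degConj : (degConj N q).range.index = q + 1 := by
  obtain ⟨t, ht⟩ := exists_reps_zero N q hqN
  rw [(RightTransversal.ofAction (degConj N q) (actG N q) (actG_one N q) (actG_mul N q)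
    ((0 : ZMod q) : OnePoint (ZMod q)) (stab_zero N q) t ht).index_eq_card, card_onePoint_zmod]

include hqN in
/-- **(I1)(d)**: `cor₁ ∘ res₁ = q + 1`. -/
theorem cor₁_res₁ (φ : Additive (Gamma0 N) →+ A) :
    cor₁ N q A (res₁ N q A φ) = (q + 1) • φ := by
  unfold cor₁ res₁
  rw [corAlong_resAlong, index_range_incl N q hqN]

include hqN in
/-- **(I1)(d)**: `cor₂ ∘ res₂ = q + 1`. -/
theorem cor₂_res₂ (φ : Additive (Gamma0 N) →+ A) :
    cor₂ N q A (res₂ N q A φ) = (q + 1) • φ := by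
  unfold cor₂ res₂
  rw [corAlong_resAlong, index_range_degConj N q hqN]

/-- **(I1)(d)**: `cor₁ ∘ res₂ = T_q`. -/
theorem cor₁_res₂ (φ : Additive (Gamma0 N) →+ A) :
    cor₁ N q A (res₂ N q A φ) = heckeHom N q hqN A φ := by
  obtain ⟨t, ht⟩ := exists_reps_infty N q hqN
  exact corAlong_resAlong_eq_heckeHom N q hqN (incl N q) (degConj N q) (incl_injective N q) ∞
    (stab_infty N q hqN) t ht (heckeRep_infty_mul_incl N q) φ

/-- **(I1)(d)**: `cor₂ ∘ res₁ = T_q`. -/
theorem cor₂_res₁ (φ : Additive (Gamma0 N) →+ A) :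
    cor₂ N q A (res₁ N q A φ) = heckeHom N q hqN A φ := by
  obtain ⟨t, ht⟩ := exists_reps_zero N q hqN
  exact corAlong_resAlong_eq_heckeHom N q hqN (degConj N q) (incl N q) (degConj_injective N q)
    ((0 : ZMod q) : OnePoint (ZMod q)) (stab_zero N q) t ht (heckeRep_zero_mul_degConj N q) φ

end Main

end Fermat.Agent.S41.Degeneracy
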