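/-
P-S41 block (B2), item (c) of (I1), restriction part (helper67): for a prime `l ∤ N q`,
`T_l ∘ res_i = res_i ∘ T_l` on `Hom(Γ₀(N), A)`.
-/
import Fermat.Agent.S41.Degeneracy.CorRes

set_option autoImplicit false
set_option linter.unusedSectionVars false

noncomputable section

namespace Fermat.Agent.S41.Degeneracy

open P2MW.S_ModularForm_heckeT_slash_eq_self_of_mem_Gamma0.ModularForm.HeckeSlashInvariance
open CongruenceSubgroup Matrix.SpecialLinearGroup
open scoped MatrixGroups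
open OnePoint
open Fermat.Agent.S41 Fermat.Agent.Gateway.HeckeCoh

section Res

variable (N q l : ℕ) [NeZero N] [Fact q.Prime] [Fact l.Prime] (hl : ¬ l ∣ N) (hl' : ¬ l ∣ N * q)
  (A : Type*) [AddCommGroup A]

/-- **(I1)(c)**: `T_l ∘ res₁ = res₁ ∘ T_l`. -/
theorem heckeHom_res₁ (φ : Additive (Gamma0 N) →+ A) :
    heckeHom (N * q) l hl' A (res₁ N q A φ) = res₁ N q A (heckeHom N l hl A φ) := by
  apply AddMonoidHom.ext
  intro γ
  obtain ⟨γ, rfl⟩ := Additive.ofMul.surjective γ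
  rw [heckeHom_apply, res₁_apply, heckeHom_apply]
  refine Finset.sum_congr rfl fun x _ => ?_
  rw [res₁_apply]
  congr 2
  symm
  apply coc_unique
  exact coc_spec (N * q) l hl' x γ

end Res

section Res₂

variable (N q l : ℕ) [NeZero N] [Fact q.Prime] [Fact l.Prime] (hql : q ≠ l)

include hql in
theorem cast_q_ne_zero : ((q : ℕ) : ZMod l) ≠ 0 := by
  intro h
  rw [ZMod.natCast_eq_zero_iff] at h
  exact hql (((Nat.prime_dvd_prime_iff_eq Fact.out Fact.out).mp h).symm)

/-- multiplication by `q` on `ℙ¹(𝔽_l)`: the matrix `diag(q, 1)`. -/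
def mulQ : GL (Fin 2) (ZMod l) :=
  Matrix.GeneralLinearGroup.mkOfDetNeZero !![((q : ℕ) : ZMod l), 0; 0, 1] (by
    rw [Matrix.det_fin_two_of, mul_one, mul_zero, sub_zero]
    exact cast_q_ne_zero q l hql)

theorem mulQ_smul_infty : mulQ q l hql • (∞ : OnePoint (ZMod l)) = ∞ := by
  rw [OnePoint.smul_infty_eq_self_iff]
  simp [mulQ]

theorem mulQ_smul_coe (j : ZMod l) :
    mulQ q l hql • ((j : ZMod l) : OnePoint (ZMod l)) = (((q : ℕ) : ZMod l) * j : ZMod l) := by
  rw [OnePoint.smul_some_eq_ite]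
  simp [mulQ]

/-- `redMatrix l (degConj γ) * diag(q, 1) = diag(q, 1) * redMatrix l γ`. -/
theorem redMatrix_degConj_mul (γ : Gamma0 (N * q)) :
    redMatrix l ((degConj N q γ : Gamma0 N) : SL(2, ℤ)) * mulQ q l hql
      = mulQ q l hql * redMatrix l ((γ : Gamma0 (N * q)) : SL(2, ℤ)) := by
  have h10 := q_mul_degSL_one_zero N q γ
  have h10' : ((q : ℕ) : ZMod l) * (((degSL N q γ) 1 0 : ℤ) : ZMod l)
      = ((((γ : SL(2, ℤ)) 1 0 : ℤ)) : ZMod l) := by
    have := congrArg (Int.cast : ℤ → ZMod l) h10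
    push_cast at this
    exact this
  apply Matrix.GeneralLinearGroup.ext
  intro i j
  rw [degConj_coe, Matrix.GeneralLinearGroup.coe_mul, Matrix.GeneralLinearGroup.coe_mul]
  fin_cases i <;> fin_cases j
  · simp [Matrix.mul_apply, Fin.sum_univ_two, mulQ, mul_comm]
  · simp [Matrix.mul_apply, Fin.sum_univ_two, mulQ]
  · have : ((q : ℕ) : ZMod l) * (((γ : SL(2, ℤ)) 1 0 / (q : ℤ) : ℤ) : ZMod l)
        = ((((γ : SL(2, ℤ)) 1 0 : ℤ)) : ZMod l) := by
      rw [← degSL_one_zero]; exact h10'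
    simp [Matrix.mul_apply, Fin.sum_univ_two, mulQ, mul_comm, this]
  · simp [Matrix.mul_apply, Fin.sum_univ_two, mulQ]

theorem redMatrix_degConj_smul (γ : Gamma0 (N * q)) (x : OnePoint (ZMod l)) :
    redMatrix l ((degConj N q γ : Gamma0 N) : SL(2, ℤ)) • (mulQ q l hql • x)
      = mulQ q l hql • (redMatrix l ((γ : Gamma0 (N * q)) : SL(2, ℤ)) • x) := by
  rw [← mul_smul, redMatrix_degConj_mul, mul_smul]

/-- the unipotent matrix `[[1, e], [0, 1]]` -/
def unipSL (e : ℤ) : SL(2, ℤ) := ⟨!![1, e; 0, 1], by simp [Matrix.det_fin_two_of]⟩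

@[simp] theorem unipSL_zero_zero (e : ℤ) : unipSL e 0 0 = 1 := rfl
@[simp] theorem unipSL_zero_one (e : ℤ) : unipSL e 0 1 = e := rfl
@[simp] theorem unipSL_one_zero (e : ℤ) : unipSL e 1 0 = 0 := rfl
@[simp] theorem unipSL_one_one (e : ℤ) : unipSL e 1 1 = 1 := rfl

theorem unipSL_mem (e : ℤ) : unipSL e ∈ Gamma0 N := by
  rw [Gamma0_mem, unipSL_one_zero, Int.cast_zero]

/-- the unipotent element `[[1, e], [0, 1]]` of `Γ₀(N)` -/
def unipG (e : ℤ) : Gamma0 N := ⟨unipSL e, unipSL_mem N e⟩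

@[simp] theorem unipG_coe (e : ℤ) : ((unipG N e : Gamma0 N) : SL(2, ℤ)) = unipSL e := rfl

/-- `diag(q, 1) α_x = w_x α_{q x} diag(q, 1)` with `w_x ∈ Γ₀(N)` unipotent. -/
theorem exists_heckeRep_conj (x : OnePoint (ZMod l)) :
    ∃ w : Gamma0 N, heckeRep q ∞ * heckeRep l x
      = mapGL ℝ ((w : Gamma0 N) : SL(2, ℤ)) * heckeRep l (mulQ q l hql • x) * heckeRep q ∞ := by
  have hq : q ≠ 0 := (Fact.out : q.Prime).ne_zero
  have hl0 : l ≠ 0 := (Fact.out : l.Prime).ne_zero
  cases x with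
  | infty =>
    refine ⟨1, ?_⟩
    rw [mulQ_smul_infty, Subgroup.coe_one, map_one, one_mul, heckeRep_infty, heckeRep_infty]
    apply Matrix.GeneralLinearGroup.ext
    intro i j
    rw [Matrix.GeneralLinearGroup.coe_mul, Matrix.GeneralLinearGroup.coe_mul,
      ModularForm.val_heckeDiagMatrix hq, ModularForm.val_heckeDiagMatrix hl0]
    fin_cases i <;> fin_cases j <;> simp [Matrix.mul_apply, Fin.sum_univ_two, mul_comm]
  | coe j =>
    rw [mulQ_smul_coe]
    -- `q * j.val = r + e * l`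
    have hdiv : (l : ℤ) ∣ (q : ℤ) * (j.val : ℤ) - ((((q : ℕ) : ZMod l) * j).val : ℤ) := by
      rw [← ZMod.intCast_zmod_eq_zero_iff_dvd]
      push_cast
      rw [ZMod.natCast_zmod_val, ZMod.natCast_zmod_val, sub_self]
    obtain ⟨e, he⟩ := hdiv
    refine ⟨unipG N e, ?_⟩
    have he' : (q : ℝ) * (j.val : ℝ) = ((((q : ℕ) : ZMod l) * j).val : ℝ) + (l : ℝ) * (e : ℝ) := by
      have : ((q : ℤ) * (j.val : ℤ) : ℤ) = ((((q : ℕ) : ZMod l) * j).val : ℤ) + (l : ℤ) * e := by
        linarith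
      exact_mod_cast this
    rw [ZMod.natCast_val, ZMod.natCast_val, mul_comm ((q : ℕ) : ZMod l) j] at he'
    apply Matrix.GeneralLinearGroup.ext
    intro i k
    rw [heckeRep_infty, heckeRep_coe, heckeRep_coe, Matrix.GeneralLinearGroup.coe_mul,
      Matrix.GeneralLinearGroup.coe_mul, Matrix.GeneralLinearGroup.coe_mul,
      ModularForm.val_heckeDiagMatrix hq, ModularForm.val_heckeMatrix hl0,
      ModularForm.val_heckeMatrix hl0, unipG_coe]
    fin_cases i <;> fin_cases k <;>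
      simp [Matrix.mul_apply, Fin.sum_univ_two, mul_comm]
    linarith

variable (hl : ¬ l ∣ N) (hl' : ¬ l ∣ N * q) (A : Type*) [AddCommGroup A]

/-- **(I1)(c)**: `T_l ∘ res₂ = res₂ ∘ T_l`. -/
theorem heckeHom_res₂ (φ : Additive (Gamma0 N) →+ A) :
    heckeHom (N * q) l hl' A (res₂ N q A φ) = res₂ N q A (heckeHom N l hl A φ) := by
  classical
  have hql : q ≠ l := fun h => hl' (h ▸ Dvd.intro_left N rfl)
  apply AddMonoidHom.ext
  intro γ
  obtain ⟨γ, rfl⟩ := Additive.ofMul.surjective γ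
  rw [heckeHom_apply, res₂_apply, heckeHom_apply]
  choose w hw using exists_heckeRep_conj N q l hql
  set σ : Equiv.Perm (OnePoint (ZMod l)) :=
    MulAction.toPerm (redMatrix l ((γ : Gamma0 (N * q)) : SL(2, ℤ))) with hσ
  set m : Equiv.Perm (OnePoint (ZMod l)) := MulAction.toPerm (mulQ q l hql) with hm
  have hσx : ∀ x, σ x = redMatrix l ((γ : Gamma0 (N * q)) : SL(2, ℤ)) • x := fun _ => rfl
  have hmx : ∀ x, m x = mulQ q l hql • x := fun _ => rfl
  have hkey : ∀ x, degConj N q (coc (N * q) l hl' x γ)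
      = w x * coc N l hl (m x) (degConj N q γ) * (w (σ x))⁻¹ := by
    intro x
    have hc : coc N l hl (m x) (degConj N q γ)
        = (w x)⁻¹ * degConj N q (coc (N * q) l hl' x γ) * w (σ x) := by
      apply coc_unique
      rw [hmx, redMatrix_degConj_smul N q l hql γ x, ← hσx, ← hmx, ← hmx]
      -- cancel `δ` on the right
      apply mul_right_cancel (b := heckeRep q ∞)
      have h1 := hw x
      have h2 := hw (σ x)
      have h3 := coc_spec (N * q) l hl' x γ
      have h4 := heckeRep_infty_mul_incl N q γ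
      have h5 := heckeRep_infty_mul_incl N q (coc (N * q) l hl' x γ)
      rw [incl_coe] at h4 h5
      rw [← hσx] at h3
      rw [← hmx] at h1 h2
      have e1 : mapGL ℝ ((w x : Gamma0 N) : SL(2, ℤ)) *
          (heckeRep l (m x) * mapGL ℝ ((degConj N q γ : Gamma0 N) : SL(2, ℤ)) * heckeRep q ∞)
          = mapGL ℝ ((degConj N q (coc (N * q) l hl' x γ) : Gamma0 N) : SL(2, ℤ)) *
            mapGL ℝ ((w (σ x) : Gamma0 N) : SL(2, ℤ)) * heckeRep l (m (σ x)) * heckeRep q ∞ := by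
        calc mapGL ℝ ((w x : Gamma0 N) : SL(2, ℤ)) *
            (heckeRep l (m x) * mapGL ℝ ((degConj N q γ : Gamma0 N) : SL(2, ℤ)) * heckeRep q ∞)
            = mapGL ℝ ((w x : Gamma0 N) : SL(2, ℤ)) * heckeRep l (m x) *
                (mapGL ℝ ((degConj N q γ : Gamma0 N) : SL(2, ℤ)) * heckeRep q ∞) := by
              simp only [mul_assoc]
          _ = mapGL ℝ ((w x : Gamma0 N) : SL(2, ℤ)) * heckeRep l (m x) * heckeRep q ∞ *
                mapGL ℝ ((γ : Gamma0 (N * q)) : SL(2, ℤ)) := by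
              rw [← h4]; simp only [mul_assoc]
          _ = heckeRep q ∞ * (heckeRep l x * mapGL ℝ ((γ : Gamma0 (N * q)) : SL(2, ℤ))) := by
              rw [← h1]; simp only [mul_assoc]
          _ = heckeRep q ∞ * mapGL ℝ ((coc (N * q) l hl' x γ : Gamma0 (N * q)) : SL(2, ℤ)) *
                heckeRep l (σ x) := by
              rw [h3]; simp only [mul_assoc]
          _ = mapGL ℝ ((degConj N q (coc (N * q) l hl' x γ) : Gamma0 N) : SL(2, ℤ)) *
                (heckeRep q ∞ * heckeRep l (σ x)) := by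
              rw [h5]; simp only [mul_assoc]
          _ = _ := by
              rw [h2]; simp only [mul_assoc]
      rw [Subgroup.coe_mul, Subgroup.coe_mul, Subgroup.coe_inv, map_mul, map_mul, map_inv]
      have e2 := congrArg (fun z => (mapGL ℝ ((w x : Gamma0 N) : SL(2, ℤ)))⁻¹ * z) e1
      simp only [inv_mul_cancel_left] at e2
      rw [e2]
      simp only [mul_assoc]
    rw [hc]
    group
  rw [Finset.sum_congr rfl fun x _ => by rw [res₂_apply, hkey x]]
  rw [sum_conj_eq φ σ w fun x => coc N l hl (m x) (degConj N q γ)]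
  exact Equiv.sum_comp m fun y => φ (Additive.ofMul (coc N l hl y (degConj N q γ)))

end Res₂

end Fermat.Agent.S41.Degeneracy
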