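/-
P-S41 block (B2), item (c) of (I1), corestriction part (helper67): for a prime `l ∤ N q`,
`T_l ∘ cor_i = cor_i ∘ T_l` on `Hom(Γ₀(N q), A)`.

Proof: `T_l = cor₁^{(l)} ∘ res₂^{(l)}` at the levels `N` and `N q` (`CorRes.lean`), Mackey's formula
for one double coset and transitivity of the transfer (`Bridge.lean`).
-/
import Fermat.Agent.S41.Degeneracy.HeckeRes

set_option autoImplicit false
set_option linter.unusedSectionVars false

noncomputable section

namespace Fermat.Agent.S41.Degeneracy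

open P2MW.S_ModularForm_heckeT_slash_eq_self_of_mem_Gamma0.ModularForm.HeckeSlashInvariance
open CongruenceSubgroup Matrix.SpecialLinearGroup
open scoped MatrixGroups
open OnePoint
open Fermat.Agent.S41 Fermat.Agent.Gateway.HeckeCoh

section Levels

variable (N q l : ℕ)

/-- `Γ₀(N q l) = Γ₀(N l q)`. -/
def castE : Gamma0 (N * q * l) ≃* Gamma0 (N * l * q) :=
  MulEquiv.subgroupCongr (by rw [Nat.mul_right_comm])

@[simp] theorem castE_coe (x : Gamma0 (N * q * l)) :
    ((castE N q l x : Gamma0 (N * l * q)) : SL(2, ℤ)) = x := rfl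

@[simp] theorem castE_symm_coe (x : Gamma0 (N * l * q)) :
    (((castE N q l).symm x : Gamma0 (N * q * l)) : SL(2, ℤ)) = x := rfl

/-- `Γ₀(N q l) → Γ₀(N l)`, the inclusion. -/
def iH₁ : Gamma0 (N * q * l) →* Gamma0 (N * l) :=
  (incl (N * l) q).comp (castE N q l).toMonoidHom

@[simp] theorem iH₁_coe (x : Gamma0 (N * q * l)) :
    ((iH₁ N q l x : Gamma0 (N * l)) : SL(2, ℤ)) = x := rfl

theorem iH₁_injective : Function.Injective (iH₁ N q l) :=
  (incl_injective (N * l) q).comp (castE N q l).injective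

variable [NeZero q] [NeZero l]

/-- `Γ₀(N q l) → Γ₀(N l)`, conjugation by `diag(q, 1)`. -/
def iH₂ : Gamma0 (N * q * l) →* Gamma0 (N * l) :=
  (degConj (N * l) q).comp (castE N q l).toMonoidHom

theorem iH₂_coe (x : Gamma0 (N * q * l)) :
    ((iH₂ N q l x : Gamma0 (N * l)) : SL(2, ℤ)) = degSL (N * l) q (castE N q l x) := rfl

theorem iH₂_injective : Function.Injective (iH₂ N q l) :=
  (degConj_injective (N * l) q).comp (castE N q l).injective

/-- the square `degConj_l ∘ incl_q = incl_q ∘ degConj_l`. -/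
theorem sq₁ (x : Gamma0 (N * q * l)) :
    degConj N l (iH₁ N q l x) = incl N q (degConj (N * q) l x) := by
  apply Subtype.ext
  rw [degConj_coe, incl_coe, degConj_coe]
  ext i j
  fin_cases i <;> fin_cases j
  · show (degSL N l (iH₁ N q l x)) 0 0 = (degSL (N * q) l x) 0 0
    rw [degSL_zero_zero, degSL_zero_zero, iH₁_coe]
  · show (degSL N l (iH₁ N q l x)) 0 1 = (degSL (N * q) l x) 0 1
    rw [degSL_zero_one, degSL_zero_one, iH₁_coe]
  · show (degSL N l (iH₁ N q l x)) 1 0 = (degSL (N * q) l x) 1 0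
    rw [degSL_one_zero, degSL_one_zero, iH₁_coe]
  · show (degSL N l (iH₁ N q l x)) 1 1 = (degSL (N * q) l x) 1 1
    rw [degSL_one_one, degSL_one_one, iH₁_coe]

/-- the square `degConj_l ∘ degConj_q = degConj_q ∘ degConj_l`. -/
theorem sq₂ (x : Gamma0 (N * q * l)) :
    degConj N l (iH₂ N q l x) = degConj N q (degConj (N * q) l x) := by
  apply Subtype.ext
  rw [degConj_coe, degConj_coe]
  ext i j
  fin_cases i <;> fin_cases j
  · show (degSL N l (iH₂ N q l x)) 0 0 = (degSL N q (degConj (N * q) l x)) 0 0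
    rw [degSL_zero_zero, degSL_zero_zero, iH₂_coe, degConj_coe, degSL_zero_zero, degSL_zero_zero,
      castE_coe]
  · show (degSL N l (iH₂ N q l x)) 0 1 = (degSL N q (degConj (N * q) l x)) 0 1
    rw [degSL_zero_one, degSL_zero_one, iH₂_coe, degConj_coe, degSL_zero_one, degSL_zero_one,
      castE_coe]
    ring
  · show (degSL N l (iH₂ N q l x)) 1 0 = (degSL N q (degConj (N * q) l x)) 1 0
    rw [degSL_one_zero, degSL_one_zero, iH₂_coe, degConj_coe, degSL_one_zero, degSL_one_zero,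
      castE_coe, Int.ediv_ediv_of_nonneg (Int.natCast_nonneg q),
      Int.ediv_ediv_of_nonneg (Int.natCast_nonneg l), mul_comm (q : ℤ) (l : ℤ)]
  · show (degSL N l (iH₂ N q l x)) 1 1 = (degSL N q (degConj (N * q) l x)) 1 1
    rw [degSL_one_one, degSL_one_one, iH₂_coe, degConj_coe, degSL_one_one, degSL_one_one,
      castE_coe]

/-- `incl_l ∘ incl_q = incl_q ∘ incl_l`. -/
theorem comp₁ : (incl N l).comp (iH₁ N q l) = (incl N q).comp (incl (N * q) l) := by
  ext x
  rfl

/-- `incl_l ∘ degConj_q = degConj_q ∘ incl_l`. -/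
theorem comp₂ : (incl N l).comp (iH₂ N q l) = (degConj N q).comp (incl (N * q) l) := by
  apply MonoidHom.ext
  intro x
  apply Subtype.ext
  show ((incl N l (iH₂ N q l x) : Gamma0 N) : SL(2, ℤ))
    = ((degConj N q (incl (N * q) l x) : Gamma0 N) : SL(2, ℤ))
  rw [incl_coe, iH₂_coe, degConj_coe]
  ext i j
  fin_cases i <;> fin_cases j
  · show (degSL (N * l) q (castE N q l x)) 0 0 = (degSL N q (incl (N * q) l x)) 0 0
    rw [degSL_zero_zero, degSL_zero_zero, castE_coe, incl_coe]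
  · show (degSL (N * l) q (castE N q l x)) 0 1 = (degSL N q (incl (N * q) l x)) 0 1
    rw [degSL_zero_one, degSL_zero_one, castE_coe, incl_coe]
  · show (degSL (N * l) q (castE N q l x)) 1 0 = (degSL N q (incl (N * q) l x)) 1 0
    rw [degSL_one_zero, degSL_one_zero, castE_coe, incl_coe]
  · show (degSL (N * l) q (castE N q l x)) 1 1 = (degSL N q (incl (N * q) l x)) 1 1
    rw [degSL_one_one, degSL_one_one, castE_coe, incl_coe]

end Levels

section Mackey

variable (N q l : ℕ) [NeZero N] [Fact q.Prime] [Fact l.Prime] (hq : ¬ q ∣ N) (hl : ¬ l ∣ N)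
  (hql : q ≠ l)

include hq hql in
theorem not_dvd_mul : ¬ q ∣ N * l := by
  intro h
  rcases (Nat.Prime.dvd_mul Fact.out).mp h with h | h
  · exact hq h
  · exact hql ((Nat.prime_dvd_prime_iff_eq Fact.out Fact.out).mp h)

theorem Gamma_mul_le_Gamma0 : Gamma (N * l) ≤ Gamma0 N := by
  intro g hg
  rw [Gamma_mem] at hg
  rw [Gamma0_mem]
  have h1 : ((N * l : ℕ) : ℤ) ∣ g 1 0 := (ZMod.intCast_zmod_eq_zero_iff_dvd _ _).mp hg.2.2.1
  exact (ZMod.intCast_zmod_eq_zero_iff_dvd _ _).mpr
    (dvd_trans (by push_cast; exact Dvd.intro _ rfl) h1)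

theorem dvd_zero_one_of_mem_Gamma_mul {g : SL(2, ℤ)} (hg : g ∈ Gamma (N * l)) :
    (l : ℤ) ∣ g 0 1 := by
  rw [Gamma_mem] at hg
  have h1 : ((N * l : ℕ) : ℤ) ∣ g 0 1 := (ZMod.intCast_zmod_eq_zero_iff_dvd _ _).mp hg.2.1
  exact dvd_trans (by push_cast; exact Dvd.intro_left _ rfl) h1

include hq hql in
/-- intersection condition for the pair (`degConj_l`, `incl_q`). -/
theorem mackey_int₁ (h : Gamma0 (N * l)) (hh : degConj N l h ∈ (incl N q).range) :
    h ∈ (iH₁ N q l).range := by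
  rw [mem_range_incl_iff q N hq, degConj_coe] at hh
  have h1 : (q : ℤ) ∣ (h : SL(2, ℤ)) 1 0 := by
    rw [← q_mul_degSL_one_zero N l h]
    exact Dvd.dvd.mul_left hh _
  obtain ⟨y, hy⟩ := (mem_range_incl_iff q (N * l) (not_dvd_mul N q l hq hql) h).mpr h1
  exact ⟨(castE N q l).symm y, by
    show incl (N * l) q ((castE N q l) ((castE N q l).symm y)) = h
    rw [MulEquiv.apply_symm_apply, hy]⟩

include hql in
/-- intersection condition for the pair (`degConj_l`, `degConj_q`). -/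
theorem mackey_int₂ (h : Gamma0 (N * l)) (hh : degConj N l h ∈ (degConj N q).range) :
    h ∈ (iH₂ N q l).range := by
  rw [mem_range_degConj_iff q N, degConj_coe, degSL_zero_one] at hh
  have hcop : IsCoprime (q : ℤ) (l : ℤ) :=
    Nat.isCoprime_iff_coprime.mpr ((Nat.coprime_primes Fact.out Fact.out).mpr hql)
  have h1 : (q : ℤ) ∣ (h : SL(2, ℤ)) 0 1 := hcop.dvd_of_dvd_mul_left hh
  obtain ⟨y, hy⟩ := (mem_range_degConj_iff q (N * l) h).mpr h1
  exact ⟨(castE N q l).symm y, by
    show degConj (N * l) q ((castE N q l) ((castE N q l).symm y)) = h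
    rw [MulEquiv.apply_symm_apply, hy]⟩

include hq hql in
theorem coprime_mul : Nat.Coprime (N * l) q :=
  ((Nat.Prime.coprime_iff_not_dvd Fact.out).mpr (not_dvd_mul N q l hq hql)).symm

include hq hql in
/-- product condition for the pair (`degConj_l`, `incl_q`): `Γ₀(N) = Γ₀(N q) · (Γ₀(N) ∩ Γ⁰(l))`. -/
theorem mackey_prod₁ (g : Gamma0 N) :
    ∃ (k : Gamma0 (N * q)) (h : Gamma0 (N * l)), g = incl N q k * degConj N l h := by
  obtain ⟨g₁, hg₁, hx⟩ := exists_mem_Gamma_actP1_infty q (N * l) (coprime_mul N q l hq hql)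
    (actG N q g ∞)
  set G₁ : Gamma0 N := ⟨g₁, Gamma_mul_le_Gamma0 N l hg₁⟩ with hG₁
  have hG₁x : actG N q G₁ ∞ = actG N q g ∞ := hx
  obtain ⟨h, hh⟩ : G₁ ∈ (degConj N l).range :=
    (mem_range_degConj_iff l N G₁).mpr (dvd_zero_one_of_mem_Gamma_mul N l hg₁)
  have hk : g * G₁⁻¹ ∈ (incl N q).range := by
    rw [← stab_infty N q hq, actG_mul, ← hG₁x, ← actG_mul, mul_inv_cancel, actG_one]
  obtain ⟨k, hk⟩ := hk
  exact ⟨k, h, by rw [hk, hh, inv_mul_cancel_right]⟩

include hq hql in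
/-- product condition for the pair (`degConj_l`, `degConj_q`). -/
theorem mackey_prod₂ (g : Gamma0 N) :
    ∃ (k : Gamma0 (N * q)) (h : Gamma0 (N * l)), g = degConj N q k * degConj N l h := by
  obtain ⟨g₁, hg₁, hx⟩ := exists_mem_Gamma_actP1_zero q (N * l) (coprime_mul N q l hq hql)
    (actG N q g ((0 : ZMod q) : OnePoint (ZMod q)))
  set G₁ : Gamma0 N := ⟨g₁, Gamma_mul_le_Gamma0 N l hg₁⟩ with hG₁
  have hG₁x : actG N q G₁ ((0 : ZMod q) : OnePoint (ZMod q))
      = actG N q g ((0 : ZMod q) : OnePoint (ZMod q)) := hx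
  obtain ⟨h, hh⟩ : G₁ ∈ (degConj N l).range :=
    (mem_range_degConj_iff l N G₁).mpr (dvd_zero_one_of_mem_Gamma_mul N l hg₁)
  have hk : g * G₁⁻¹ ∈ (degConj N q).range := by
    rw [← stab_zero N q, actG_mul, ← hG₁x, ← actG_mul, mul_inv_cancel, actG_one]
  obtain ⟨k, hk⟩ := hk
  exact ⟨k, h, by rw [hk, hh, inv_mul_cancel_right]⟩

end Mackey

section Main

variable (N q l : ℕ) [NeZero N] [Fact q.Prime] [Fact l.Prime] (hq : ¬ q ∣ N) (hl : ¬ l ∣ N)
  (hl' : ¬ l ∣ N * q) (A : Type*) [AddCommGroup A]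

theorem finiteIndex_range_mulEquiv {G G' : Type*} [Group G] [Group G'] (e : G' ≃* G) :
    e.toMonoidHom.range.FiniteIndex := by
  rw [MonoidHom.range_eq_top.2 e.surjective]
  infer_instance

include hq in
/-- **(I1)(c)**: `T_l ∘ cor₁ = cor₁ ∘ T_l`. -/
theorem heckeHom_cor₁ (ψ : Additive (Gamma0 (N * q)) →+ A) :
    heckeHom N l hl A (cor₁ N q A ψ) = cor₁ N q A (heckeHom (N * q) l hl' A ψ) := by
  have hql : q ≠ l := fun h => hl' (h ▸ Dvd.intro_left N rfl)
  have := finiteIndex_range_mulEquiv (castE N q l)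
  have : (iH₁ N q l).range.FiniteIndex :=
    finiteIndex_range_comp (incl (N * l) q) (castE N q l).toMonoidHom
  have : ((incl N l).comp (iH₁ N q l)).range.FiniteIndex :=
    finiteIndex_range_comp (incl N l) (iH₁ N q l)
  have : ((incl N q).comp (incl (N * q) l)).range.FiniteIndex :=
    finiteIndex_range_comp (incl N q) (incl (N * q) l)
  rw [← cor₁_res₂ N l hl A, ← cor₁_res₂ (N * q) l hl' A]
  unfold cor₁ res₂
  rw [resAlong_corAlong_mackey (degConj N l) (incl N q) (incl_injective N q) (iH₁ N q l)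
    (iH₁_injective N q l) (degConj (N * q) l) (sq₁ N q l) (mackey_int₁ N q l hq hql)
    (mackey_prod₁ N q l hq hql) ψ]
  rw [corAlong_corAlong (incl N l) (incl_injective N l) (iH₁ N q l) (iH₁_injective N q l),
    corAlong_corAlong (incl N q) (incl_injective N q) (incl (N * q) l) (incl_injective (N * q) l)]
  exact corAlong_congr (comp₁ N q l) _ _

include hq in
/-- **(I1)(c)**: `T_l ∘ cor₂ = cor₂ ∘ T_l`. -/
theorem heckeHom_cor₂ (ψ : Additive (Gamma0 (N * q)) →+ A) :
    heckeHom N l hl A (cor₂ N q A ψ) = cor₂ N q A (heckeHom (N * q) l hl' A ψ) := by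
  have hql : q ≠ l := fun h => hl' (h ▸ Dvd.intro_left N rfl)
  have := finiteIndex_range_mulEquiv (castE N q l)
  have : (iH₂ N q l).range.FiniteIndex :=
    finiteIndex_range_comp (degConj (N * l) q) (castE N q l).toMonoidHom
  have : ((incl N l).comp (iH₂ N q l)).range.FiniteIndex :=
    finiteIndex_range_comp (incl N l) (iH₂ N q l)
  have : ((degConj N q).comp (incl (N * q) l)).range.FiniteIndex :=
    finiteIndex_range_comp (degConj N q) (incl (N * q) l)
  rw [← cor₁_res₂ N l hl A, ← cor₁_res₂ (N * q) l hl' A]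
  unfold cor₁ cor₂ res₂
  rw [resAlong_corAlong_mackey (degConj N l) (degConj N q) (degConj_injective N q) (iH₂ N q l)
    (iH₂_injective N q l) (degConj (N * q) l) (sq₂ N q l) (mackey_int₂ N q l hql)
    (mackey_prod₂ N q l hq hql) ψ]
  rw [corAlong_corAlong (incl N l) (incl_injective N l) (iH₂ N q l) (iH₂_injective N q l),
    corAlong_corAlong (degConj N q) (degConj_injective N q) (incl (N * q) l)
      (incl_injective (N * q) l)]
  exact corAlong_congr (comp₂ N q l) _ _

end Main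

end Fermat.Agent.S41.Degeneracy
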