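/-
P-S41 block (B2), general theory (helper67): explicit formulas for Mathlib's `MonoidHom.transfer`
in terms of RIGHT transversals (`G = ⊔ H t_i`, `t_i g = c(i,g) t_{σ_g i}` with `c(i,g) ∈ H`), as needed
for the comparison with Hecke operators given by coset representatives `α_x γ = c(x,γ) α_{x·γ}`.

Mathlib only.
-/
import Mathlib

set_option autoImplicit false

noncomputable section

namespace Fermat.Agent.S41.Degeneracy

open MonoidHom Subgroup

section Section

variable {G : Type*} [Group G] {H : Subgroup G} {A : Type*} [CommGroup A]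

theorem section_conj_mem (r : G ⧸ H → G) (hr : ∀ q, (r q : G ⧸ H) = q) (g : G) (q : G ⧸ H) :
    (r q)⁻¹ * (g * r (g⁻¹ • q)) ∈ H := by
  rw [← QuotientGroup.eq, hr q]
  have h1 : ((g * r (g⁻¹ • q) : G) : G ⧸ H) = g • ((r (g⁻¹ • q) : G) : G ⧸ H) := rfl
  rw [h1, hr, smul_inv_smul]

/-- the transfer computed with an arbitrary section `r` of `G → G ⧸ H` (left cosets). -/
theorem transfer_eq_prod_of_section [H.FiniteIndex] [Fintype (G ⧸ H)] (ϕ : H →* A)
    (r : G ⧸ H → G) (hr : ∀ q, (r q : G ⧸ H) = q) (g : G) :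
    transfer ϕ g = ∏ q : G ⧸ H, ϕ ⟨(r q)⁻¹ * (g * r (g⁻¹ • q)), section_conj_mem r hr g q⟩ := by
  classical
  rw [transfer_def ϕ ⟨Set.range r, isComplement_range_left hr⟩ g]
  unfold leftTransversals.diff
  simp only
  refine Finset.prod_congr (by ext; simp) fun q _ => ?_
  congr 1
  apply Subtype.ext
  simp only
  rw [smul_apply_eq_smul_apply_inv_smul, IsComplement.leftQuotientEquiv_apply hr,
    IsComplement.leftQuotientEquiv_apply hr, smul_eq_mul]

end Section

section RightTransversal

variable {G : Type*} [Group G] {A : Type*} [CommGroup A]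

/-- A family `t : I → G` is a **right transversal** of the subgroup `H` if every `g : G` lies in
exactly one right coset `H t_i`. -/
structure RightTransversal (H : Subgroup G) (I : Type*) where
  /-- the representatives -/
  t : I → G
  /-- every element lies in exactly one coset `H t_i` -/
  existsUnique : ∀ g : G, ∃! i : I, g * (t i)⁻¹ ∈ H

namespace RightTransversal

variable {H : Subgroup G} {I : Type*} (T : RightTransversal H I)

/-- the index of the right coset containing `g` -/
def idx (g : G) : I := (T.existsUnique g).choose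

theorem mul_inv_mem (g : G) : g * (T.t (T.idx g))⁻¹ ∈ H := (T.existsUnique g).choose_spec.1

theorem idx_eq_of_mem {g : G} {i : I} (h : g * (T.t i)⁻¹ ∈ H) : T.idx g = i :=
  ((T.existsUnique g).choose_spec.2 i h).symm

theorem idx_eq_iff {g : G} {i : I} : T.idx g = i ↔ g * (T.t i)⁻¹ ∈ H :=
  ⟨fun h => h ▸ T.mul_inv_mem g, T.idx_eq_of_mem⟩

@[simp] theorem idx_t (i : I) : T.idx (T.t i) = i :=
  T.idx_eq_of_mem (by rw [mul_inv_cancel]; exact H.one_mem)

theorem idx_mul_left {h : G} (hh : h ∈ H) (g : G) : T.idx (h * g) = T.idx g :=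
  T.idx_eq_of_mem (by rw [mul_assoc]; exact H.mul_mem hh (T.mul_inv_mem g))

theorem t_injective : Function.Injective T.t := fun i i' h => by
  rw [← T.idx_t i, ← T.idx_t i', h]

/-- the right action of `G` on the index set: `H t_i g = H t_{i·g}` -/
def actFun (g : G) (i : I) : I := T.idx (T.t i * g)

theorem actFun_one (i : I) : T.actFun 1 i = i := by simp [actFun]

theorem actFun_mul (g g' : G) (i : I) : T.actFun (g * g') i = T.actFun g' (T.actFun g i) := by
  unfold actFun
  apply T.idx_eq_of_mem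
  have h1 := T.mul_inv_mem (T.t i * g)
  have h2 := T.mul_inv_mem (T.t (T.idx (T.t i * g)) * g')
  have : T.t i * (g * g') * (T.t (T.idx (T.t (T.idx (T.t i * g)) * g')))⁻¹
      = (T.t i * g * (T.t (T.idx (T.t i * g)))⁻¹) *
        (T.t (T.idx (T.t i * g)) * g' * (T.t (T.idx (T.t (T.idx (T.t i * g)) * g')))⁻¹) := by
    group
  rw [this]
  exact H.mul_mem h1 h2

/-- the right action as permutations -/
def act (g : G) : Equiv.Perm I where
  toFun := T.actFun g
  invFun := T.actFun g⁻¹
  left_inv i := by rw [← T.actFun_mul, mul_inv_cancel, T.actFun_one]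
  right_inv i := by rw [← T.actFun_mul, inv_mul_cancel, T.actFun_one]

@[simp] theorem act_apply (g : G) (i : I) : T.act g i = T.idx (T.t i * g) := rfl

theorem act_mul (g g' : G) (i : I) : T.act (g * g') i = T.act g' (T.act g i) :=
  T.actFun_mul g g' i

/-- the cocycle `c(i, g) ∈ H` with `t_i g = c(i, g) t_{i·g}` -/
def coc (i : I) (g : G) : H := ⟨T.t i * g * (T.t (T.act g i))⁻¹, T.mul_inv_mem _⟩

theorem t_mul (i : I) (g : G) : T.t i * g = (T.coc i g : G) * T.t (T.act g i) := by
  simp [coc]

/-- uniqueness of the decomposition `t_i g = h t_{i'}` -/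
theorem eq_of_t_mul {i i' : I} {g : G} {h : H} (hh : T.t i * g = (h : G) * T.t i') :
    i' = T.act g i ∧ h = T.coc i g := by
  have hi : T.act g i = i' := by
    rw [act_apply]
    apply T.idx_eq_of_mem
    rw [hh, mul_assoc, mul_inv_cancel, mul_one]
    exact h.2
  refine ⟨hi.symm, Subtype.ext ?_⟩
  subst hi
  have := T.t_mul i g
  rw [hh] at this
  exact mul_right_cancel this

/-- the bijection of the index set with the left cosets `t_i⁻¹ H` -/
def equivQuotient : I ≃ G ⧸ H where
  toFun i := (((T.t i)⁻¹ : G) : G ⧸ H)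
  invFun q := Quotient.liftOn' q (fun g => T.idx g⁻¹) (by
    intro a b hab
    rw [QuotientGroup.leftRel_apply] at hab
    show T.idx a⁻¹ = T.idx b⁻¹
    apply T.idx_eq_of_mem
    have h1 := T.mul_inv_mem b⁻¹
    have : a⁻¹ * (T.t (T.idx b⁻¹))⁻¹ = (a⁻¹ * b) * (b⁻¹ * (T.t (T.idx b⁻¹))⁻¹) := by group
    rw [this]
    exact H.mul_mem hab h1)
  left_inv i := by
    show T.idx ((T.t i)⁻¹)⁻¹ = i
    rw [inv_inv, T.idx_t]
  right_inv q := by
    induction q using QuotientGroup.induction_on with
    | H g =>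
      show (((T.t (T.idx g⁻¹))⁻¹ : G) : G ⧸ H) = (g : G ⧸ H)
      rw [QuotientGroup.eq, inv_inv]
      have h1 := H.inv_mem (T.mul_inv_mem g⁻¹)
      rwa [mul_inv_rev, inv_inv, inv_inv] at h1

theorem equivQuotient_apply (i : I) : T.equivQuotient i = (((T.t i)⁻¹ : G) : G ⧸ H) := rfl

theorem inv_smul_equivQuotient (g : G) (i : I) :
    g⁻¹ • T.equivQuotient i = T.equivQuotient (T.act g i) := by
  rw [equivQuotient_apply, equivQuotient_apply]
  show (((g⁻¹ * (T.t i)⁻¹ : G)) : G ⧸ H) = _
  rw [QuotientGroup.eq]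
  have h1 := T.mul_inv_mem (T.t i * g)
  have : (g⁻¹ * (T.t i)⁻¹)⁻¹ * (T.t (T.act g i))⁻¹ = T.t i * g * (T.t (T.idx (T.t i * g)))⁻¹ := by
    rw [act_apply]; group
  rw [this]
  exact h1

include T in
theorem index_eq_card [Fintype I] : H.index = Fintype.card I := by
  rw [Subgroup.index, Nat.card_congr T.equivQuotient.symm, Nat.card_eq_fintype_card]

include T in
theorem finiteIndex [Finite I] : H.FiniteIndex := by
  have : Finite (G ⧸ H) := Finite.of_equiv I T.equivQuotient
  exact Subgroup.finiteIndex_of_finite_quotient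

/-- **the transfer in terms of a right transversal**: `transfer ϕ g = ∏ i, ϕ (c(i, g))`. -/
theorem transfer_eq [Fintype I] [H.FiniteIndex] (ϕ : H →* A) (g : G) :
    transfer ϕ g = ∏ i : I, ϕ (T.coc i g) := by
  classical
  have : Fintype (G ⧸ H) := Fintype.ofEquiv I T.equivQuotient
  set r : G ⧸ H → G := fun q => (T.t (T.equivQuotient.symm q))⁻¹ with hr
  have hrq : ∀ q, (r q : G ⧸ H) = q := fun q => by
    rw [hr]
    simp only
    rw [← equivQuotient_apply, Equiv.apply_symm_apply]
  rw [transfer_eq_prod_of_section ϕ r hrq g, ← Equiv.prod_comp T.equivQuotient]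
  refine Finset.prod_congr rfl fun i _ => ?_
  congr 1
  apply Subtype.ext
  simp only [hr, coc, Equiv.symm_apply_apply, inv_inv, T.inv_smul_equivQuotient g i]
  rw [mul_assoc]

include T in
/-- transfer of the restriction of a homomorphism defined on `G` is the `index`-th power. -/
theorem transfer_restrict [Fintype I] [H.FiniteIndex] (Φ : G →* A) (g : G) :
    transfer (Φ.comp H.subtype) g = Φ g ^ Fintype.card I := by
  rw [T.transfer_eq]
  have h1 : ∀ i : I, (Φ.comp H.subtype) (T.coc i g) = Φ (T.t i) * Φ g * (Φ (T.t (T.act g i)))⁻¹ := by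
    intro i
    simp [coc]
  rw [Finset.prod_congr rfl fun i _ => h1 i, Finset.prod_mul_distrib, Finset.prod_mul_distrib,
    Finset.prod_inv_distrib, Equiv.prod_comp (T.act g) fun i => Φ (T.t i), Finset.prod_const,
    Finset.card_univ]
  rw [mul_comm (∏ i, Φ (T.t i)), mul_assoc, mul_inv_cancel, mul_one]

end RightTransversal

/-- every subgroup has a right transversal (indexed by its left cosets). -/
def RightTransversal.ofSubgroup (H : Subgroup G) : RightTransversal H (G ⧸ H) where
  t q := (Quotient.out q)⁻¹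
  existsUnique g := by
    refine ⟨((g⁻¹ : G) : G ⧸ H), ?_, ?_⟩
    · simp only [inv_inv]
      have h1 : ((Quotient.out ((g⁻¹ : G) : G ⧸ H) : G) : G ⧸ H) = ((g⁻¹ : G) : G ⧸ H) :=
        Quotient.out_eq' _
      rw [QuotientGroup.eq] at h1
      have h2 := H.inv_mem h1
      rwa [mul_inv_rev, inv_inv, inv_inv] at h2
    · intro q hq
      simp only [inv_inv] at hq
      have h1 : ((g⁻¹ : G) : G ⧸ H) = ((Quotient.out q : G) : G ⧸ H) := by
        rw [QuotientGroup.eq, inv_inv]
        exact hq
      rw [h1]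
      exact (Quotient.out_eq' q).symm

end RightTransversal

section Hom

variable {G G' : Type*} [Group G] [Group G'] {A : Type*} [CommGroup A]

/-- **corestriction (transfer) along an injective homomorphism** `j : G' →* G` of finite index,
multiplicative version: `Hom(G', A) → Hom(G, A)`. -/
def corM (j : G' →* G) (hj : Function.Injective j) [j.range.FiniteIndex] (ψ : G' →* A) : G →* A :=
  transfer (ψ.comp (MonoidHom.ofInjective hj).symm.toMonoidHom)

theorem ofInjective_symm_apply_eq {j : G' →* G} (hj : Function.Injective j) {x : j.range}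
    {y : G'} (h : (x : G) = j y) : (MonoidHom.ofInjective hj).symm x = y := by
  rw [MulEquiv.symm_apply_eq]
  exact Subtype.ext h

/-- **explicit formula for `corM`**: if `t_i g = j (c i) t_{σ i}` for a right transversal `t` of the
range of `j`, then `corM j ψ g = ∏ i, ψ (c i)`. -/
theorem corM_eq_prod (j : G' →* G) (hj : Function.Injective j) [j.range.FiniteIndex]
    {I : Type*} [Fintype I] (T : RightTransversal j.range I) (ψ : G' →* A) (g : G)
    (σ : I → I) (c : I → G') (hc : ∀ i, T.t i * g = j (c i) * T.t (σ i)) :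
    corM j hj ψ g = ∏ i : I, ψ (c i) := by
  unfold corM
  rw [T.transfer_eq]
  refine Finset.prod_congr rfl fun i _ => ?_
  have h1 := T.eq_of_t_mul (i := i) (i' := σ i) (g := g) (h := ⟨j (c i), c i, rfl⟩) (hc i)
  rw [← h1.2]
  show ψ ((MonoidHom.ofInjective hj).symm ⟨j (c i), c i, rfl⟩) = ψ (c i)
  rw [ofInjective_symm_apply_eq hj rfl]

/-- `cor ∘ res = index`. -/
theorem corM_comp (j : G' →* G) (hj : Function.Injective j) [j.range.FiniteIndex] (Φ : G →* A)
    (g : G) : corM j hj (Φ.comp j) g = Φ g ^ j.range.index := by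
  classical
  have : Fintype (G ⧸ j.range) := Subgroup.fintypeQuotientOfFiniteIndex
  set T := RightTransversal.ofSubgroup j.range
  have h1 : (Φ.comp j).comp (MonoidHom.ofInjective hj).symm.toMonoidHom
      = Φ.comp j.range.subtype := by
    ext x
    obtain ⟨y, hy⟩ := x.2
    show Φ (j ((MonoidHom.ofInjective hj).symm x)) = Φ x
    rw [ofInjective_symm_apply_eq hj hy.symm, hy]
  unfold corM
  rw [h1, T.transfer_restrict, T.index_eq_card]

/-- naturality of `corM` in the coefficient group. -/
theorem corM_map {B : Type*} [CommGroup B] (j : G' →* G) (hj : Function.Injective j)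
    [j.range.FiniteIndex] (f : A →* B) (ψ : G' →* A) :
    corM j hj (f.comp ψ) = f.comp (corM j hj ψ) := by
  classical
  have : Fintype (G ⧸ j.range) := Subgroup.fintypeQuotientOfFiniteIndex
  set T := RightTransversal.ofSubgroup j.range
  ext g
  unfold corM
  rw [T.transfer_eq, MonoidHom.comp_apply, T.transfer_eq, map_prod]
  rfl

/-- the composite of two injective homomorphisms of finite index has finite index. -/
theorem finiteIndex_range_comp {G'' : Type*} [Group G''] (j₁ : G' →* G) (j₂ : G'' →* G')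
    [j₁.range.FiniteIndex] [j₂.range.FiniteIndex] : (j₁.comp j₂).range.FiniteIndex := by
  have h1 : (j₁.comp j₂).range = (j₂.range).map j₁ := by
    rw [MonoidHom.range_eq_map, MonoidHom.range_eq_map, ← Subgroup.map_map]
  rw [h1]
  constructor
  have h2 := Subgroup.index_map j₂.range j₁
  rw [h2]
  refine mul_ne_zero ?_ Subgroup.FiniteIndex.index_ne_zero
  have h3 : j₂.range ≤ j₂.range ⊔ j₁.ker := le_sup_left
  exact fun h0 => (Subgroup.FiniteIndex.index_ne_zero (H := j₂.range))
    (Nat.eq_zero_of_zero_dvd (h0 ▸ Subgroup.index_dvd_of_le h3))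

/-- the product right transversal for a composite `G'' → G' → G`. -/
def RightTransversal.comp {G'' : Type*} [Group G''] (j₁ : G' →* G) (hj₁ : Function.Injective j₁)
    (j₂ : G'' →* G') {I₁ I₂ : Type*} (T₁ : RightTransversal j₁.range I₁)
    (T₂ : RightTransversal j₂.range I₂) : RightTransversal (j₁.comp j₂).range (I₂ × I₁) where
  t p := j₁ (T₂.t p.1) * T₁.t p.2
  existsUnique g := by
    obtain ⟨h, hh⟩ := T₁.mul_inv_mem g
    obtain ⟨k, hk⟩ := T₂.mul_inv_mem h
    refine ⟨(T₂.idx h, T₁.idx g), ⟨k, ?_⟩, ?_⟩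
    · simp only [MonoidHom.comp_apply, hk, map_mul, map_inv, hh, mul_inv_rev]
      group
    · rintro ⟨a, b⟩ ⟨k', hk'⟩
      simp only [MonoidHom.comp_apply, mul_inv_rev] at hk'
      have hb : T₁.idx g = b := by
        apply T₁.idx_eq_of_mem
        refine ⟨j₂ k' * T₂.t a, ?_⟩
        rw [map_mul, hk']
        group
      subst hb
      have ha : T₂.idx h = a := by
        apply T₂.idx_eq_of_mem
        refine ⟨k', ?_⟩
        apply hj₁
        rw [hk', map_mul, map_inv, hh]
        group
      subst ha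
      rfl

/-- **transitivity of the transfer**. -/
theorem corM_comp_hom {G'' : Type*} [Group G''] (j₁ : G' →* G) (hj₁ : Function.Injective j₁)
    (j₂ : G'' →* G') (hj₂ : Function.Injective j₂) [j₁.range.FiniteIndex] [j₂.range.FiniteIndex]
    [(j₁.comp j₂).range.FiniteIndex] (ψ : G'' →* A) :
    corM (j₁.comp j₂) (hj₁.comp hj₂) ψ = corM j₁ hj₁ (corM j₂ hj₂ ψ) := by
  classical
  have : Fintype (G ⧸ j₁.range) := Subgroup.fintypeQuotientOfFiniteIndex
  have : Fintype (G' ⧸ j₂.range) := Subgroup.fintypeQuotientOfFiniteIndex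
  set T₁ := RightTransversal.ofSubgroup j₁.range
  set T₂ := RightTransversal.ofSubgroup j₂.range
  ext g
  -- the cocycles
  have hex₁ : ∀ b, ∃ h : G', T₁.t b * g = j₁ h * T₁.t (T₁.act g b) := fun b => by
    obtain ⟨h, hh⟩ := (T₁.coc b g).2
    exact ⟨h, by rw [hh]; exact T₁.t_mul b g⟩
  choose h₁ hh₁ using hex₁
  have hex₂ : ∀ b a, ∃ k : G'', T₂.t a * h₁ b = j₂ k * T₂.t (T₂.act (h₁ b) a) := fun b a => by
    obtain ⟨k, hk⟩ := (T₂.coc a (h₁ b)).2
    exact ⟨k, by rw [hk]; exact T₂.t_mul a (h₁ b)⟩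
  choose k₂ hk₂ using hex₂
  rw [corM_eq_prod j₁ hj₁ T₁ (corM j₂ hj₂ ψ) g (T₁.act g) h₁ hh₁]
  rw [corM_eq_prod (j₁.comp j₂) (hj₁.comp hj₂) (RightTransversal.comp j₁ hj₁ j₂ T₁ T₂) ψ g
    (fun p => (T₂.act (h₁ p.2) p.1, T₁.act g p.2)) (fun p => k₂ p.2 p.1) (by
      rintro ⟨a, b⟩
      show j₁ (T₂.t a) * T₁.t b * g = j₁ (j₂ (k₂ b a)) * (j₁ (T₂.t (T₂.act (h₁ b) a)) *
        T₁.t (T₁.act g b))
      rw [mul_assoc, hh₁ b, ← mul_assoc, ← map_mul, hk₂ b a, map_mul, mul_assoc])]
  rw [Fintype.prod_prod_type, Finset.prod_comm]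
  refine Finset.prod_congr rfl fun b _ => ?_
  rw [corM_eq_prod j₂ hj₂ T₂ ψ (h₁ b) (T₂.act (h₁ b)) (k₂ b) (hk₂ b)]

/-- **Mackey's formula for a single double coset** (`G = j_K(K) · j_H(H)`, and
`j_H⁻¹(j_K(K)) = i_H(L)`): `res_{j_H} ∘ cor_{j_K} = cor_{i_H} ∘ res_{i_K}`. -/
theorem corM_mackey {Hh K L : Type*} [Group Hh] [Group K] [Group L]
    (jH : Hh →* G) (jK : K →* G) (hjK : Function.Injective jK)
    (iH : L →* Hh) (hiH : Function.Injective iH) (iK : L →* K)
    [jK.range.FiniteIndex] [iH.range.FiniteIndex]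
    (hsq : ∀ l : L, jH (iH l) = jK (iK l))
    (hint : ∀ h : Hh, jH h ∈ jK.range → h ∈ iH.range)
    (hprod : ∀ g : G, ∃ (k : K) (h : Hh), g = jK k * jH h)
    (ψ : K →* A) :
    (corM jK hjK ψ).comp jH = corM iH hiH (ψ.comp iK) := by
  classical
  have : Fintype (Hh ⧸ iH.range) := Subgroup.fintypeQuotientOfFiniteIndex
  set TH := RightTransversal.ofSubgroup iH.range
  -- the induced right transversal of `jK.range` in `G`
  let T : RightTransversal jK.range (Hh ⧸ iH.range) :=
    { t := fun a => jH (TH.t a)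
      existsUnique := fun g => by
        obtain ⟨k, h, rfl⟩ := hprod g
        obtain ⟨l, hl⟩ := TH.mul_inv_mem h
        refine ⟨TH.idx h, ⟨k * iK l, ?_⟩, ?_⟩
        · rw [map_mul, ← hsq, hl, map_mul, map_inv]
          group
        · rintro a ⟨k', hk'⟩
          symm
          apply TH.idx_eq_of_mem
          apply hint
          refine ⟨k⁻¹ * k', ?_⟩
          rw [map_mul, map_inv, hk', map_mul, map_inv]
          group }
  ext h
  have hex : ∀ a, ∃ l : L, TH.t a * h = iH l * TH.t (TH.act h a) := fun a => by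
    obtain ⟨l, hl⟩ := (TH.coc a h).2
    exact ⟨l, by rw [hl]; exact TH.t_mul a h⟩
  choose l hl using hex
  rw [MonoidHom.comp_apply, corM_eq_prod iH hiH TH (ψ.comp iK) h (TH.act h) l hl,
    corM_eq_prod jK hjK T ψ (jH h) (TH.act h) (fun a => iK (l a)) (by
      intro a
      show jH (TH.t a) * jH h = jK (iK (l a)) * jH (TH.t (TH.act h a))
      rw [← map_mul, hl a, map_mul, hsq])]
  rfl

/-- **equivariance of the transfer under automorphisms**: if `θ` is an automorphism of `G` and `θ'`
an automorphism of `G'` with `j ∘ θ' = θ ∘ j`, then `cor (ψ ∘ θ') = (cor ψ) ∘ θ`. -/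
theorem corM_comp_mulEquiv (j : G' →* G) (hj : Function.Injective j) [j.range.FiniteIndex]
    (θ : G ≃* G) (θ' : G' ≃* G') (hθ : ∀ x : G', j (θ' x) = θ (j x)) (ψ : G' →* A) :
    (corM j hj ψ).comp θ.toMonoidHom = corM j hj (ψ.comp θ'.toMonoidHom) := by
  refine corM_mackey θ.toMonoidHom j hj j hj θ'.toMonoidHom (fun l => (hθ l).symm) ?_ ?_ ψ
  · rintro h ⟨y, hy⟩
    refine ⟨θ'.symm y, ?_⟩
    apply θ.injective
    rw [← hθ, MulEquiv.apply_symm_apply, hy]
    rfl
  · intro g
    exact ⟨1, θ.symm g, by simp⟩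

/-- **telescoping**: conjugating the cocycle by a coboundary does not change the product. -/
theorem prod_conj_eq {I : Type*} [Fintype I] {Γ : Type*} [Group Γ] (ψ : Γ →* A) (σ : Equiv.Perm I)
    (u c : I → Γ) : ∏ i : I, ψ (u i * c i * (u (σ i))⁻¹) = ∏ i : I, ψ (c i) := by
  simp only [map_mul, map_inv]
  rw [Finset.prod_mul_distrib, Finset.prod_mul_distrib, Finset.prod_inv_distrib,
    Equiv.prod_comp σ fun i => ψ (u i)]
  rw [mul_comm (∏ i, ψ (u i)), mul_assoc, mul_inv_cancel, mul_one]

end Hom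

section Action

variable {G G' : Type*} [Group G] [Group G']

/-- a right transversal from a transitive RIGHT action (`act (g * h) x = act h (act g x)`) on a set
`X` with base point `x₀` whose stabiliser is the range of `j`: representatives `t x` with
`x₀ · t x = x`. -/
def RightTransversal.ofAction (j : G' →* G) {X : Type*} (act : G → X → X)
    (act_one : ∀ x, act 1 x = x) (act_mul : ∀ g h x, act (g * h) x = act h (act g x))
    (x₀ : X) (hstab : ∀ g : G, act g x₀ = x₀ ↔ g ∈ j.range) (t : X → G)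
    (ht : ∀ x, act (t x) x₀ = x) : RightTransversal j.range X where
  t := t
  existsUnique g := by
    refine ⟨act g x₀, ?_, ?_⟩
    · show g * (t (act g x₀))⁻¹ ∈ j.range
      rw [← hstab, act_mul]
      have h1 : act (t (act g x₀))⁻¹ (act (t (act g x₀)) x₀) = x₀ := by
        rw [← act_mul, mul_inv_cancel, act_one]
      rwa [ht] at h1
    · intro x hx
      have hx' : act (g * (t x)⁻¹) x₀ = x₀ := (hstab _).2 hx
      rw [act_mul] at hx'
      have h1 := congrArg (act (t x)) hx'
      rw [← act_mul, inv_mul_cancel, act_one, ht] at h1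
      exact h1.symm

theorem RightTransversal.ofAction_act (j : G' →* G) {X : Type*} (act : G → X → X)
    (act_one : ∀ x, act 1 x = x) (act_mul : ∀ g h x, act (g * h) x = act h (act g x))
    (x₀ : X) (hstab : ∀ g : G, act g x₀ = x₀ ↔ g ∈ j.range) (t : X → G)
    (ht : ∀ x, act (t x) x₀ = x) (g : G) (x : X) :
    (RightTransversal.ofAction j act act_one act_mul x₀ hstab t ht).act g x = act g x := by
  rw [RightTransversal.act_apply]
  apply RightTransversal.idx_eq_of_mem
  show t x * g * (t (act g x))⁻¹ ∈ j.range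
  rw [← hstab, act_mul, act_mul, ht]
  have h1 : act (t (act g x))⁻¹ (act (t (act g x)) x₀) = x₀ := by
    rw [← act_mul, mul_inv_cancel, act_one]
  rwa [ht] at h1

end Action

end Fermat.Agent.S41.Degeneracy
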