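/-
P-S41 block (B2) (helper67): the general transfer theory of `TransferGen.lean` transported to the
additive-character maps `resAlong`, `corAlong` of `S41/Transfer.lean`.
-/
import Fermat.Agent.S41.Transfer
import Fermat.Agent.S41.Degeneracy.TransferGen

set_option autoImplicit false

noncomputable section

namespace Fermat.Agent.S41.Degeneracy

open Fermat.Agent.S41

section Bridge

variable {G G' : Type*} [Group G] [Group G'] {A : Type*} [AddCommGroup A]

/-- `corAlong` is the additive form of `corM`. -/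
theorem corAlong_eq_corM (j : G' →* G) (hj : Function.Injective j) [j.range.FiniteIndex]
    (ψ : Additive G' →+ A) (g : G) :
    corAlong j hj A ψ (Additive.ofMul g)
      = Multiplicative.toAdd (corM j hj (AddMonoidHom.toMultiplicativeRight ψ) g) := rfl

/-- **explicit formula for `corAlong`** with a RIGHT transversal: if `t_i g = j (c i) t_{σ i}` then
`(corAlong j ψ) g = ∑ i, ψ (c i)`. -/
theorem corAlong_eq_sum (j : G' →* G) (hj : Function.Injective j) [j.range.FiniteIndex]
    {I : Type*} [Fintype I] (T : RightTransversal j.range I) (ψ : Additive G' →+ A) (g : G)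
    (σ : I → I) (c : I → G') (hc : ∀ i, T.t i * g = j (c i) * T.t (σ i)) :
    corAlong j hj A ψ (Additive.ofMul g) = ∑ i : I, ψ (Additive.ofMul (c i)) := by
  rw [corAlong_eq_corM, corM_eq_prod j hj T _ g σ c hc, toAdd_prod]
  rfl

/-- `cor ∘ res = index`. -/
theorem corAlong_resAlong (j : G' →* G) (hj : Function.Injective j) [j.range.FiniteIndex]
    (φ : Additive G →+ A) : corAlong j hj A (resAlong j A φ) = j.range.index • φ := by
  apply AddMonoidHom.ext
  intro g
  obtain ⟨g, rfl⟩ := Additive.ofMul.surjective g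
  have h1 : AddMonoidHom.toMultiplicativeRight (resAlong j A φ)
      = (AddMonoidHom.toMultiplicativeRight φ).comp j := rfl
  rw [corAlong_eq_corM, h1, corM_comp, toAdd_pow]
  rfl

/-- naturality of `corAlong` in the coefficient group. -/
theorem corAlong_comp {B : Type*} [AddCommGroup B] (j : G' →* G) (hj : Function.Injective j)
    [j.range.FiniteIndex] (f : A →+ B) (ψ : Additive G' →+ A) :
    corAlong j hj B (f.comp ψ) = f.comp (corAlong j hj A ψ) := by
  apply AddMonoidHom.ext
  intro g
  obtain ⟨g, rfl⟩ := Additive.ofMul.surjective g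
  have h1 : AddMonoidHom.toMultiplicativeRight (f.comp ψ)
      = (AddMonoidHom.toMultiplicative f).comp (AddMonoidHom.toMultiplicativeRight ψ) := rfl
  rw [corAlong_eq_corM, h1, corM_map]
  rfl

/-- naturality of `resAlong` in the coefficient group. -/
theorem resAlong_comp {B : Type*} [AddCommGroup B] (j : G' →* G) (f : A →+ B)
    (φ : Additive G →+ A) : resAlong j B (f.comp φ) = f.comp (resAlong j A φ) := rfl

/-- functoriality of `resAlong`. -/
theorem resAlong_resAlong {G'' : Type*} [Group G''] (j₁ : G' →* G) (j₂ : G'' →* G')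
    (φ : Additive G →+ A) : resAlong j₂ A (resAlong j₁ A φ) = resAlong (j₁.comp j₂) A φ := rfl

/-- **transitivity of `corAlong`**. -/
theorem corAlong_corAlong {G'' : Type*} [Group G''] (j₁ : G' →* G) (hj₁ : Function.Injective j₁)
    (j₂ : G'' →* G') (hj₂ : Function.Injective j₂) [j₁.range.FiniteIndex] [j₂.range.FiniteIndex]
    [(j₁.comp j₂).range.FiniteIndex] (ψ : Additive G'' →+ A) :
    corAlong j₁ hj₁ A (corAlong j₂ hj₂ A ψ) = corAlong (j₁.comp j₂) (hj₁.comp hj₂) A ψ := by
  apply AddMonoidHom.ext
  intro g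
  obtain ⟨g, rfl⟩ := Additive.ofMul.surjective g
  rw [corAlong_eq_corM, corAlong_eq_corM, corM_comp_hom j₁ hj₁ j₂ hj₂]
  rfl

/-- `corAlong` only depends on the homomorphism. -/
theorem corAlong_congr {j j' : G' →* G} (h : j = j') (hj : Function.Injective j)
    [j.range.FiniteIndex] [j'.range.FiniteIndex] (ψ : Additive G' →+ A) :
    corAlong j hj A ψ = corAlong j' (h ▸ hj) A ψ := by
  subst h
  rfl

/-- **Mackey's formula for one double coset**: if `j_H ∘ i_H = j_K ∘ i_K`, `j_H⁻¹(range j_K) ⊆
range i_H` and `G = range j_K · range j_H`, then `res_{j_H} ∘ cor_{j_K} = cor_{i_H} ∘ res_{i_K}`. -/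
theorem resAlong_corAlong_mackey {Hh K L : Type*} [Group Hh] [Group K] [Group L]
    (jH : Hh →* G) (jK : K →* G) (hjK : Function.Injective jK)
    (iH : L →* Hh) (hiH : Function.Injective iH) (iK : L →* K)
    [jK.range.FiniteIndex] [iH.range.FiniteIndex]
    (hsq : ∀ l : L, jH (iH l) = jK (iK l))
    (hint : ∀ h : Hh, jH h ∈ jK.range → h ∈ iH.range)
    (hprod : ∀ g : G, ∃ (k : K) (h : Hh), g = jK k * jH h)
    (ψ : Additive K →+ A) :
    resAlong jH A (corAlong jK hjK A ψ) = corAlong iH hiH A (resAlong iK A ψ) := by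
  apply AddMonoidHom.ext
  intro h
  obtain ⟨h, rfl⟩ := Additive.ofMul.surjective h
  rw [resAlong_apply, corAlong_eq_corM, corAlong_eq_corM]
  have := corM_mackey jH jK hjK iH hiH iK hsq hint hprod (AddMonoidHom.toMultiplicativeRight ψ)
  exact congrArg Multiplicative.toAdd (DFunLike.congr_fun this h)

/-- **equivariance under automorphisms**: `j ∘ θ' = θ ∘ j` ⇒ `cor (ψ ∘ θ') = (cor ψ) ∘ θ`. -/
theorem corAlong_resAlong_mulEquiv (j : G' →* G) (hj : Function.Injective j) [j.range.FiniteIndex]
    (θ : G ≃* G) (θ' : G' ≃* G') (hθ : ∀ x : G', j (θ' x) = θ (j x)) (ψ : Additive G' →+ A) :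
    resAlong θ.toMonoidHom A (corAlong j hj A ψ)
      = corAlong j hj A (resAlong θ'.toMonoidHom A ψ) := by
  apply AddMonoidHom.ext
  intro g
  obtain ⟨g, rfl⟩ := Additive.ofMul.surjective g
  rw [resAlong_apply, corAlong_eq_corM, corAlong_eq_corM]
  have := corM_comp_mulEquiv j hj θ θ' hθ (AddMonoidHom.toMultiplicativeRight ψ)
  exact congrArg Multiplicative.toAdd (DFunLike.congr_fun this g)

/-- **telescoping** (additive form): conjugating a cocycle by a coboundary does not change the sum. -/
theorem sum_conj_eq {I : Type*} [Fintype I] {Γ : Type*} [Group Γ] (φ : Additive Γ →+ A)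
    (σ : Equiv.Perm I) (u c : I → Γ) :
    ∑ i : I, φ (Additive.ofMul (u i * c i * (u (σ i))⁻¹)) = ∑ i : I, φ (Additive.ofMul (c i)) := by
  have h := prod_conj_eq (AddMonoidHom.toMultiplicativeRight φ) σ u c
  have h2 := congrArg Multiplicative.toAdd h
  rw [toAdd_prod, toAdd_prod] at h2
  exact h2

end Bridge

end Fermat.Agent.S41.Degeneracy
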