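/-
P-S41 block (B2), sub-package D4 (helper86): items (a), (b), (e) of the consumer theorem (I1):
the degeneracy maps `res₁ res₂ cor₁ cor₂` preserve the parabolic-elliptic characters `homPE`,
are natural in the coefficient group, and commute with the Prelude `charInvolution`.
-/
import Mathlib
import Fermat.Agent.S41.Defs
import Fermat.Agent.S41.Degeneracy.TransferGen
import Fermat.Agent.S41.Degeneracy.Bridge
import Fermat.Agent.Gateway.Hecke.CohPE
import Fermat.Prelude.Def_ModularCurve_PeriodHomPair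

set_option autoImplicit false

noncomputable section

namespace Fermat.Agent.S41.Degeneracy

open CongruenceSubgroup Matrix
open scoped MatrixGroups
open Fermat.Agent.Gateway.A2 Fermat.Agent.Gateway.HeckeCoh
open ModularCurve.Period

/-! ### Conjugation invariance of `IsPE` -/

theorem trace_conj_SL (t g : SL(2, ℤ)) :
    ((t⁻¹ * g * t : SL(2, ℤ)) : Matrix (Fin 2) (Fin 2) ℤ).trace
      = (g : Matrix (Fin 2) (Fin 2) ℤ).trace := by
  rw [Matrix.SpecialLinearGroup.coe_mul, Matrix.trace_mul_comm, ← Matrix.SpecialLinearGroup.coe_mul,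
    mul_inv_cancel_left]

theorem isPE_conj (t g : SL(2, ℤ)) : IsPE (t⁻¹ * g * t) ↔ IsPE g := by
  unfold IsPE
  rw [trace_conj_SL]

/-! ### (a) `homPE` is preserved -/

section General

variable {Γ' Γ : Subgroup SL(2, ℤ)}

/-- restriction along a trace-preserving homomorphism preserves `homPE`. -/
theorem resAlong_mem_homPE (j : Γ' →* Γ)
    (htr : ∀ γ' : Γ', (((j γ' : Γ) : SL(2, ℤ)) : Matrix (Fin 2) (Fin 2) ℤ).trace
      = ((γ' : SL(2, ℤ)) : Matrix (Fin 2) (Fin 2) ℤ).trace)
    (R : Type*) [Semiring R] (A : Type*) [AddCommGroup A] [Module R A]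
    {φ : Additive Γ →+ A} (hφ : φ ∈ homPE R Γ A) : resAlong j A φ ∈ homPE R Γ' A := by
  intro γ' hγ'
  rw [resAlong_apply]
  apply hφ
  unfold IsPE at hγ' ⊢
  rw [htr]
  exact hγ'

/-- **corestriction along a trace-preserving injective homomorphism of finite index preserves
`homPE`.** -/
theorem corAlong_mem_homPE (j : Γ' →* Γ) (hj : Function.Injective j) [j.range.FiniteIndex]
    (htr : ∀ γ' : Γ', (((j γ' : Γ) : SL(2, ℤ)) : Matrix (Fin 2) (Fin 2) ℤ).trace
      = ((γ' : SL(2, ℤ)) : Matrix (Fin 2) (Fin 2) ℤ).trace)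
    (R : Type*) [Semiring R] (A : Type*) [AddCommGroup A] [Module R A]
    {ψ : Additive Γ' →+ A} (hψ : ψ ∈ homPE R Γ' A) : corAlong j hj A ψ ∈ homPE R Γ A := by
  classical
  intro γ hγ
  rw [corAlong_apply]
  let _ : Fintype (Quotient (MulAction.orbitRel (Subgroup.zpowers γ) (Γ ⧸ j.range))) :=
    Fintype.ofFinite _
  rw [MonoidHom.transfer_eq_prod_quotient_orbitRel_zpowers_quot (rangeChar j hj A ψ) γ]
  rw [Finset.prod_eq_one, toAdd_one]
  intro x _
  set k := Function.minimalPeriod (γ • ·) (Quotient.out x) with hk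
  set t : Γ := (Quotient.out (Quotient.out x)) with ht
  have hmem : t⁻¹ * γ ^ k * t ∈ j.range :=
    QuotientGroup.out_conj_pow_minimalPeriod_mem j.range γ (Quotient.out x)
  obtain ⟨h, hh⟩ := hmem
  have hm : j h ∈ j.range := MonoidHom.mem_range.mpr ⟨h, rfl⟩
  have h1 : (⟨t⁻¹ * γ ^ k * t, QuotientGroup.out_conj_pow_minimalPeriod_mem j.range γ
      (Quotient.out x)⟩ : j.range) = ⟨j h, hm⟩ := Subtype.ext hh.symm
  rw [h1, rangeChar_apply j hj A ψ h hm]
  have h2 : IsPE (h : SL(2, ℤ)) := by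
    unfold IsPE
    rw [← htr, hh]
    have h3 : ((t⁻¹ * γ ^ k * t : Γ) : SL(2, ℤ))
        = (t : SL(2, ℤ))⁻¹ * (γ : SL(2, ℤ)) ^ k * (t : SL(2, ℤ)) := rfl
    rw [h3, trace_conj_SL]
    exact isPE_pow hγ k
  rw [hψ h h2]
  rfl

end General

section Level

variable (N q : ℕ)

theorem trace_incl (γ : Gamma0 (N * q)) :
    (((incl N q γ : Gamma0 N) : SL(2, ℤ)) : Matrix (Fin 2) (Fin 2) ℤ).trace
      = ((γ : SL(2, ℤ)) : Matrix (Fin 2) (Fin 2) ℤ).trace := rfl

variable [NeZero q]

theorem trace_degConj (γ : Gamma0 (N * q)) :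
    (((degConj N q γ : Gamma0 N) : SL(2, ℤ)) : Matrix (Fin 2) (Fin 2) ℤ).trace
      = ((γ : SL(2, ℤ)) : Matrix (Fin 2) (Fin 2) ℤ).trace := by
  rw [Matrix.trace_fin_two, Matrix.trace_fin_two, degConj_coe]
  have h1 := degSL_zero_zero N q γ
  have h2 := degSL_one_one N q γ
  rw [h1, h2]

variable (R : Type*) [Semiring R] (A : Type*) [AddCommGroup A] [Module R A]

omit [NeZero q] in
theorem res₁_mem_homPE {φ : Additive (Gamma0 N) →+ A} (hφ : φ ∈ homPE R (Gamma0 N) A) :
    res₁ N q A φ ∈ homPE R (Gamma0 (N * q)) A :=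
  resAlong_mem_homPE (incl N q) (trace_incl N q) R A hφ

theorem res₂_mem_homPE {φ : Additive (Gamma0 N) →+ A} (hφ : φ ∈ homPE R (Gamma0 N) A) :
    res₂ N q A φ ∈ homPE R (Gamma0 (N * q)) A :=
  resAlong_mem_homPE (degConj N q) (trace_degConj N q) R A hφ

variable [NeZero N]

theorem cor₁_mem_homPE {ψ : Additive (Gamma0 (N * q)) →+ A}
    (hψ : ψ ∈ homPE R (Gamma0 (N * q)) A) : cor₁ N q A ψ ∈ homPE R (Gamma0 N) A :=
  corAlong_mem_homPE (incl N q) (incl_injective N q) (trace_incl N q) R A hψ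

theorem cor₂_mem_homPE {ψ : Additive (Gamma0 (N * q)) →+ A}
    (hψ : ψ ∈ homPE R (Gamma0 (N * q)) A) : cor₂ N q A ψ ∈ homPE R (Gamma0 N) A :=
  corAlong_mem_homPE (degConj N q) (degConj_injective N q) (trace_degConj N q) R A hψ

end Level

/-! ### Bridge `corAlong` ↔ `corM` -/

section Bridge

variable {G' G : Type*} [Group G'] [Group G]

/- `corAlong_eq_corM`, `resAlong_comp`, `corAlong_comp` live in `Degeneracy/Bridge.lean`
(helper67); they are used from there. -/

/-! ### (b) naturality in the coefficient group -/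

theorem resAlong_smul (j : G' →* G) {R : Type*} [Semiring R] {A : Type*} [AddCommGroup A]
    [Module R A] (c : R) (φ : Additive G →+ A) :
    resAlong j A (c • φ) = c • resAlong j A φ := rfl

theorem corAlong_smul (j : G' →* G) (hj : Function.Injective j) [j.range.FiniteIndex]
    {R : Type*} [Semiring R] {A : Type*} [AddCommGroup A] [Module R A] (c : R)
    (ψ : Additive G' →+ A) : corAlong j hj A (c • ψ) = c • corAlong j hj A ψ := by
  have h1 : ∀ χ : Additive G' →+ A, c • χ = (DistribSMul.toAddMonoidHom A c).comp χ :=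
    fun χ => rfl
  have h2 : ∀ χ : Additive G →+ A, c • χ = (DistribSMul.toAddMonoidHom A c).comp χ :=
    fun χ => rfl
  rw [h1, h2, corAlong_comp]

/-- equivariance of `corAlong` under automorphisms (additive form of `corM_comp_mulEquiv`). -/
theorem corAlong_comp_mulEquiv (j : G' →* G) (hj : Function.Injective j) [j.range.FiniteIndex]
    (θ : G ≃* G) (θ' : G' ≃* G') (hθ : ∀ x : G', j (θ' x) = θ (j x))
    (A : Type*) [AddCommGroup A] (ψ : Additive G' →+ A) :
    (corAlong j hj A ψ).comp (MonoidHom.toAdditive θ.toMonoidHom)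
      = corAlong j hj A (ψ.comp (MonoidHom.toAdditive θ'.toMonoidHom)) := by
  apply AddMonoidHom.ext
  intro g
  obtain ⟨g, rfl⟩ := Additive.ofMul.surjective g
  have h0 : (corAlong j hj A ψ).comp (MonoidHom.toAdditive θ.toMonoidHom) (Additive.ofMul g)
      = corAlong j hj A ψ (Additive.ofMul (θ g)) := rfl
  rw [h0, corAlong_eq_corM, corAlong_eq_corM]
  have h1 := corM_comp_mulEquiv j hj θ θ' hθ (AddMonoidHom.toMultiplicativeRight ψ)
  have h2 := DFunLike.congr_fun h1 g
  rw [MonoidHom.comp_apply] at h2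
  have h3 : θ.toMonoidHom g = θ g := rfl
  rw [h3] at h2
  rw [h2]
  rfl

end Bridge

section LevelNat

variable (N q : ℕ) {A B : Type*} [AddCommGroup A] [AddCommGroup B] (f : A →+ B)

theorem res₁_comp (φ : Additive (Gamma0 N) →+ A) :
    res₁ N q B (f.comp φ) = f.comp (res₁ N q A φ) := rfl

variable [NeZero q]

theorem res₂_comp (φ : Additive (Gamma0 N) →+ A) :
    res₂ N q B (f.comp φ) = f.comp (res₂ N q A φ) := rfl

variable [NeZero N]

theorem cor₁_comp (ψ : Additive (Gamma0 (N * q)) →+ A) :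
    cor₁ N q B (f.comp ψ) = f.comp (cor₁ N q A ψ) :=
  corAlong_comp (incl N q) (incl_injective N q) f ψ

theorem cor₂_comp (ψ : Additive (Gamma0 (N * q)) →+ A) :
    cor₂ N q B (f.comp ψ) = f.comp (cor₂ N q A ψ) :=
  corAlong_comp (degConj N q) (degConj_injective N q) f ψ

end LevelNat

section LevelSmul

variable (N q : ℕ) {R : Type*} [Semiring R] {A : Type*} [AddCommGroup A] [Module R A] (c : R)

theorem res₁_smul (φ : Additive (Gamma0 N) →+ A) :
    res₁ N q A (c • φ) = c • res₁ N q A φ := rfl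

variable [NeZero q]

theorem res₂_smul (φ : Additive (Gamma0 N) →+ A) :
    res₂ N q A (c • φ) = c • res₂ N q A φ := rfl

variable [NeZero N]

theorem cor₁_smul (ψ : Additive (Gamma0 (N * q)) →+ A) :
    cor₁ N q A (c • ψ) = c • cor₁ N q A ψ :=
  corAlong_smul (incl N q) (incl_injective N q) c ψ

theorem cor₂_smul (ψ : Additive (Gamma0 (N * q)) →+ A) :
    cor₂ N q A (c • ψ) = c • cor₂ N q A ψ :=
  corAlong_smul (degConj N q) (degConj_injective N q) c ψ

end LevelSmul

/-! ### (e) compatibility with `charInvolution` -/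

section Involution

variable (N q : ℕ)

/-- `jConjGamma0` as a multiplicative automorphism (it is an involution). -/
def jConjEquiv : Gamma0 N ≃* Gamma0 N where
  toFun := jConjGamma0 N
  invFun := jConjGamma0 N
  left_inv := jConjGamma0_jConjGamma0 N
  right_inv := jConjGamma0_jConjGamma0 N
  map_mul' := map_mul (jConjGamma0 N)

@[simp] theorem jConjEquiv_apply (γ : Gamma0 N) : jConjEquiv N γ = jConjGamma0 N γ := rfl

theorem jConjEquiv_toMonoidHom : (jConjEquiv N).toMonoidHom = jConjGamma0 N := rfl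

theorem incl_jConj (γ : Gamma0 (N * q)) :
    incl N q (jConjGamma0 (N * q) γ) = jConjGamma0 N (incl N q γ) := rfl

variable [NeZero q]

theorem degConj_jConj (γ : Gamma0 (N * q)) :
    degConj N q (jConjGamma0 (N * q) γ) = jConjGamma0 N (degConj N q γ) := by
  have hq : (q : ℤ) ≠ 0 := by exact_mod_cast NeZero.ne q
  apply Subtype.ext
  rw [degConj_coe, jConjGamma0_coe, degConj_coe]
  ext i j
  fin_cases i <;> fin_cases j
  · show (degSL N q (jConjGamma0 (N * q) γ)) 0 0 = (jConjSL (degSL N q γ)) 0 0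
    rw [degSL_zero_zero, jConjGamma0_coe]
    show jConjMat _ 0 0 = jConjMat _ 0 0
    rw [jConjMat_apply_zero_zero, jConjMat_apply_zero_zero, degSL_zero_zero]
  · show (degSL N q (jConjGamma0 (N * q) γ)) 0 1 = (jConjSL (degSL N q γ)) 0 1
    rw [degSL_zero_one, jConjGamma0_coe]
    show (q : ℤ) * jConjMat _ 0 1 = jConjMat _ 0 1
    rw [jConjMat_apply_zero_one, jConjMat_apply_zero_one, degSL_zero_one]
    ring
  · show (degSL N q (jConjGamma0 (N * q) γ)) 1 0 = (jConjSL (degSL N q γ)) 1 0
    apply mul_left_cancel₀ hq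
    rw [q_mul_degSL_one_zero, jConjGamma0_coe]
    show jConjMat _ 1 0 = (q : ℤ) * jConjMat _ 1 0
    rw [jConjMat_apply_one_zero, jConjMat_apply_one_zero, mul_neg, q_mul_degSL_one_zero]
  · show (degSL N q (jConjGamma0 (N * q) γ)) 1 1 = (jConjSL (degSL N q γ)) 1 1
    rw [degSL_one_one, jConjGamma0_coe]
    show jConjMat _ 1 1 = jConjMat _ 1 1
    rw [jConjMat_apply_one_one, jConjMat_apply_one_one, degSL_one_one]

variable (R : Type*) [Semiring R] (A : Type*) [AddCommGroup A] [Module R A]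

omit [NeZero q] in
theorem res₁_charInvolution (φ : Additive (Gamma0 N) →+ A) :
    res₁ N q A (charInvolution N R A φ) = charInvolution (N * q) R A (res₁ N q A φ) := rfl

theorem res₂_charInvolution (φ : Additive (Gamma0 N) →+ A) :
    res₂ N q A (charInvolution N R A φ) = charInvolution (N * q) R A (res₂ N q A φ) := by
  apply AddMonoidHom.ext
  intro γ
  obtain ⟨γ, rfl⟩ := Additive.ofMul.surjective γ
  rw [res₂_apply, charInvolution_apply, charInvolution_apply]
  show φ (Additive.ofMul (jConjGamma0 N (degConj N q γ))) =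
    φ (Additive.ofMul (degConj N q (jConjGamma0 (N * q) γ)))
  rw [degConj_jConj]

variable [NeZero N]

theorem charInvolution_eq_comp (M : ℕ) (ψ : Additive (Gamma0 M) →+ A) :
    charInvolution M R A ψ = ψ.comp (MonoidHom.toAdditive (jConjEquiv M).toMonoidHom) := rfl

theorem cor₁_charInvolution (ψ : Additive (Gamma0 (N * q)) →+ A) :
    cor₁ N q A (charInvolution (N * q) R A ψ) = charInvolution N R A (cor₁ N q A ψ) := by
  rw [charInvolution_eq_comp, charInvolution_eq_comp]
  exact (corAlong_comp_mulEquiv (incl N q) (incl_injective N q) (jConjEquiv N)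
    (jConjEquiv (N * q)) (incl_jConj N q) A ψ).symm

theorem cor₂_charInvolution (ψ : Additive (Gamma0 (N * q)) →+ A) :
    cor₂ N q A (charInvolution (N * q) R A ψ) = charInvolution N R A (cor₂ N q A ψ) := by
  rw [charInvolution_eq_comp, charInvolution_eq_comp]
  exact (corAlong_comp_mulEquiv (degConj N q) (degConj_injective N q) (jConjEquiv N)
    (jConjEquiv (N * q)) (degConj_jConj N q) A ψ).symm

end Involution

end Fermat.Agent.S41.Degeneracy

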